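import Mathlib
import Fermat.Agent.S30.Model.TameRadical
import Fermat.Agent.S30.Ramif.PlaceDual
import Fermat.Agent.S30.Ramif.AdjoinDual

/-!
# SFN: the tameness provider (generic part)

`O` a DVR with uniformiser `π`, `E = Frac O` of characteristic zero, `L / E(t)` finite,
`t` transcendental.  `C₀` = integral closure of `O[t]` in `L`.  If every place `v` of `L / E`
over the closed point `t = c` (`c : O`) has `v.ord (t - c) ∣ e`, then every prime `Q` of `C₀`
lying over the horizontal prime `(t - c)` of `O[t]` satisfies the explicit tameness condition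
`Tame.TameAt (t - c) e Q` of `Model/TameRadical.lean`.
-/

set_option autoImplicit false

namespace Fermat.Agent.S30.Model.SFN.TameProvider

open AlgebraicCurve IsDedekindDomain WithZero Polynomial

section Dedekind

variable {B : Type*} [CommRing B] [IsDedekindDomain B]

/-- In a Dedekind domain, at a height-one prime `P`, an element `b ∈ P ^ k ∖ P ^ (k + 1)` is a
unit multiple of the `k`-th power of a uniformiser; elementwise form. -/
theorem exists_uniformiser_data (w : HeightOneSpectrum B) (b : B) (k : ℕ)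
    (hk : b ∈ w.asIdeal ^ k) (hk1 : b ∉ w.asIdeal ^ (k + 1)) :
    ∃ ϖ a ε : B, ϖ ∈ w.asIdeal ∧ a ∉ w.asIdeal ∧ ε ∉ w.asIdeal ∧ a * b = ε * ϖ ^ k ∧
      ∀ x ∈ w.asIdeal, ∃ s, s ∉ w.asIdeal ∧ ∃ y, s * x = ϖ * y := by
  obtain ⟨ϖ, hϖ⟩ := w.intValuation_exists_uniformizer
  have hϖP : ϖ ∈ w.asIdeal := by
    rw [← w.intValuation_lt_one_iff_mem, hϖ, ← exp_zero, exp_lt_exp]
    norm_num
  have hϖP2 : ϖ ∉ w.asIdeal ^ 2 := by
    rw [← w.intValuation_le_pow_iff_mem, hϖ, exp_le_exp]
    norm_num
  obtain ⟨I, hI⟩ : w.asIdeal ∣ Ideal.span {ϖ} := by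
    rw [Ideal.dvd_span_singleton]
    exact hϖP
  have hInot : ¬ I ≤ w.asIdeal := by
    intro hle
    apply hϖP2
    have h1 : Ideal.span {ϖ} ≤ w.asIdeal ^ 2 := by
      rw [hI, sq]
      exact Ideal.mul_mono_right hle
    exact h1 (Ideal.mem_span_singleton_self ϖ)
  obtain ⟨s, hsI, hsP⟩ := SetLike.not_le_iff_exists.mp hInot
  have hdiv : ∀ x ∈ w.asIdeal, ∃ y, s * x = ϖ * y := by
    intro x hx
    have h1 : x * s ∈ Ideal.span {ϖ} := by
      rw [hI]
      exact Ideal.mul_mem_mul hx hsI
    obtain ⟨y, hy⟩ := Ideal.mem_span_singleton'.mp h1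
    exact ⟨y, by rw [mul_comm s x, ← hy, mul_comm]⟩
  have haP : s ^ k ∉ w.asIdeal := fun h => hsP (w.isPrime.mem_of_pow_mem k h)
  have hmem : s ^ k * b ∈ Ideal.span {ϖ ^ k} := by
    rw [← Ideal.span_singleton_pow, hI, mul_pow, mul_comm (s ^ k) b]
    exact Ideal.mul_mem_mul hk (Ideal.pow_mem_pow hsI k)
  obtain ⟨ε, hε⟩ := Ideal.mem_span_singleton'.mp hmem
  refine ⟨ϖ, s ^ k, ε, hϖP, haP, ?_, hε.symm, fun x hx => ⟨s, hsP, hdiv x hx⟩⟩
  intro hεP
  apply hk1
  rw [← w.intValuation_le_pow_iff_mem]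
  have h1 : w.intValuation (s ^ k * b) ≤ exp (-((k + 1 : ℕ) : ℤ)) := by
    rw [w.intValuation_le_pow_iff_mem, ← hε, pow_succ' w.asIdeal k]
    exact Ideal.mul_mem_mul hεP (Ideal.pow_mem_pow hϖP k)
  rwa [map_mul, HeightOneSpectrum.intValuation_eq_one_iff.mpr haP, one_mul] at h1

end Dedekind

section Clear

variable {O E L : Type*} [CommRing O] [IsDomain O] [IsDiscreteValuationRing O]
  [Field E] [Algebra O E] [IsFractionRing O E]
  [Field L] [Algebra E L] [Algebra O L] [IsScalarTower O E L]

/-- Every element of `E = Frac O` becomes an element of `O` after multiplication by a high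
power of the uniformiser. -/
theorem exists_pow_mul_eq_algebraMap (π : O) (hπ : Irreducible π) (r : E) :
    ∃ m : ℕ, ∀ n, m ≤ n → ∃ a : O, algebraMap O E π ^ n * r = algebraMap O E a := by
  obtain ⟨⟨a, b⟩, hab⟩ := IsLocalization.surj (nonZeroDivisors O) r
  have hb0 : (b : O) ≠ 0 := nonZeroDivisors.coe_ne_zero b
  obtain ⟨m, u, hu⟩ := IsDiscreteValuationRing.eq_unit_mul_pow_irreducible hb0 hπ
  refine ⟨m, fun n hn => ⟨π ^ (n - m) * ((u⁻¹ : Oˣ) : O) * a, ?_⟩⟩
  have hab' : r * algebraMap O E (b : O) = algebraMap O E a := hab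
  rw [map_mul, map_mul, ← hab', hu, map_mul, map_pow, map_pow]
  have hn' : algebraMap O E π ^ n = algebraMap O E π ^ (n - m) * algebraMap O E π ^ m := by
    rw [← pow_add]
    congr 1
    omega
  have hunit : algebraMap O E ((u⁻¹ : Oˣ) : O) * algebraMap O E (u : O) = 1 := by
    rw [← map_mul, Units.inv_mul, map_one]
  rw [hn']
  calc algebraMap O E π ^ (n - m) * algebraMap O E π ^ m * r
      = algebraMap O E π ^ (n - m) * 1 * (r * algebraMap O E π ^ m) := by ring
    _ = algebraMap O E π ^ (n - m) * algebraMap O E ((u⁻¹ : Oˣ) : O) *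
          (r * (algebraMap O E (u : O) * algebraMap O E π ^ m)) := by
        rw [← hunit]; ring

/-- Elements of `E[t]` land in `O[t]` after multiplication by a high power of `π`. -/
theorem exists_pow_mul_mem_adjoin (π : O) (hπ : Irreducible π) (t : L) (c : L)
    (hc : c ∈ Algebra.adjoin E ({t} : Set L)) :
    ∃ m : ℕ, ∀ n, m ≤ n → algebraMap O L π ^ n * c ∈ Algebra.adjoin O ({t} : Set L) := by
  have hπ_mem : algebraMap O L π ∈ Algebra.adjoin O ({t} : Set L) :=
    Subalgebra.algebraMap_mem _ π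
  induction hc using Algebra.adjoin_induction with
  | mem x hx =>
    exact ⟨0, fun n _ => mul_mem (pow_mem hπ_mem n) (Algebra.subset_adjoin hx)⟩
  | algebraMap r =>
    obtain ⟨m, hm⟩ := exists_pow_mul_eq_algebraMap π hπ r
    refine ⟨m, fun n hn => ?_⟩
    obtain ⟨a, ha⟩ := hm n hn
    have h1 : algebraMap O L π ^ n * algebraMap E L r = algebraMap O L a := by
      rw [IsScalarTower.algebraMap_apply O E L, IsScalarTower.algebraMap_apply O E L a, ← ha,
        map_mul, map_pow]
    rw [h1]
    exact Subalgebra.algebraMap_mem _ a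
  | add x y _ _ hx hy =>
    obtain ⟨m1, h1⟩ := hx
    obtain ⟨m2, h2⟩ := hy
    refine ⟨max m1 m2, fun n hn => ?_⟩
    rw [mul_add]
    exact add_mem (h1 n (le_trans (le_max_left _ _) hn)) (h2 n (le_trans (le_max_right _ _) hn))
  | mul x y _ _ hx hy =>
    obtain ⟨m1, h1⟩ := hx
    obtain ⟨m2, h2⟩ := hy
    refine ⟨m1 + m2, fun n hn => ?_⟩
    have e : algebraMap O L π ^ n * (x * y) =
        (algebraMap O L π ^ m1 * x) * (algebraMap O L π ^ (n - m1) * y) := by
      have : algebraMap O L π ^ n = algebraMap O L π ^ m1 * algebraMap O L π ^ (n - m1) := by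
        rw [← pow_add]; congr 1; omega
      rw [this]; ring
    rw [e]
    exact mul_mem (h1 m1 le_rfl) (h2 (n - m1) (by omega))

theorem adjoin_le_adjoin (t : L) {x : L} (hx : x ∈ Algebra.adjoin O ({t} : Set L)) :
    x ∈ Algebra.adjoin E ({t} : Set L) := by
  induction hx using Algebra.adjoin_induction with
  | mem y hy => exact Algebra.subset_adjoin hy
  | algebraMap r =>
    rw [IsScalarTower.algebraMap_apply O E L]
    exact Subalgebra.algebraMap_mem _ _
  | add x y _ _ hx hy => exact add_mem hx hy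
  | mul x y _ _ hx hy => exact mul_mem hx hy

/-- A generic inclusion of subalgebras of `L` over different base rings. -/
def inclSub (S : Subalgebra O L) (T : Subalgebra E L) (h : ∀ x, x ∈ S → x ∈ T) : S →+* T where
  toFun x := ⟨x.1, h x.1 x.2⟩
  map_one' := Subtype.ext (by simp)
  map_mul' x y := Subtype.ext (by simp)
  map_zero' := Subtype.ext (by simp)
  map_add' x y := Subtype.ext (by simp)

theorem coe_inclSub (S : Subalgebra O L) (T : Subalgebra E L) (h : ∀ x, x ∈ S → x ∈ T) (x : S) :
    ((inclSub S T h x : T) : L) = (x : L) := rfl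

theorem algebraMap_comp_inclSub (S : Subalgebra O L) (T : Subalgebra E L)
    (h : ∀ x, x ∈ S → x ∈ T) : (algebraMap T L).comp (inclSub S T h) = algebraMap S L :=
  RingHom.ext fun x => coe_inclSub S T h x

/-- The inclusion `O[t] → E[t]`. -/
def inclAdjoin (t : L) : Algebra.adjoin O ({t} : Set L) →+* Algebra.adjoin E ({t} : Set L) :=
  inclSub _ _ fun _ hx => adjoin_le_adjoin t hx

theorem coe_inclAdjoin (t : L) (x : Algebra.adjoin O ({t} : Set L)) :
    ((inclAdjoin (E := E) t x : Algebra.adjoin E ({t} : Set L)) : L) = (x : L) :=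
  coe_inclSub _ _ _ x

theorem algebraMap_comp_inclAdjoin (t : L) :
    (algebraMap (Algebra.adjoin E ({t} : Set L)) L).comp (inclAdjoin (O := O) (E := E) t) =
      algebraMap (Algebra.adjoin O ({t} : Set L)) L :=
  algebraMap_comp_inclSub _ _ _

/-- Integral over `O[t]` implies integral over `E[t]`. -/
theorem isIntegral_adjoin_of_isIntegral (t : L) {x : L}
    (hx : IsIntegral (Algebra.adjoin O ({t} : Set L)) x) :
    IsIntegral (Algebra.adjoin E ({t} : Set L)) x := by
  obtain ⟨P, hP, hPx⟩ := hx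
  refine ⟨P.map (inclAdjoin (E := E) t), hP.map _, ?_⟩
  rw [eval₂_map, algebraMap_comp_inclAdjoin]
  exact hPx

/-- An element integral over `E[t]` becomes integral over `O[t]` after multiplication by a power
of `π`. -/
theorem exists_pow_mul_isIntegral (π : O) (hπ : Irreducible π) (t : L) (w : L)
    (hw : IsIntegral (Algebra.adjoin E ({t} : Set L)) w) :
    ∃ n : ℕ, IsIntegral (Algebra.adjoin O ({t} : Set L)) (algebraMap O L π ^ n * w) := by
  classical
  obtain ⟨P, hP, hPw⟩ := hw
  have hm : ∀ i : ℕ, ∃ m : ℕ, ∀ n, m ≤ n →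
      algebraMap O L π ^ n * ((P.coeff i : Algebra.adjoin E ({t} : Set L)) : L) ∈
        Algebra.adjoin O ({t} : Set L) :=
    fun i => exists_pow_mul_mem_adjoin π hπ t _ (P.coeff i).2
  choose m hm using hm
  set d := P.natDegree with hd
  set n := (Finset.range d).sup m with hn
  have hπE : algebraMap O L π ∈ Algebra.adjoin E ({t} : Set L) := by
    rw [IsScalarTower.algebraMap_apply O E L]
    exact Subalgebra.algebraMap_mem _ _
  let s : Algebra.adjoin E ({t} : Set L) := ⟨algebraMap O L π ^ n, pow_mem hπE n⟩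
  have hQ : (scaleRoots P s).Monic := (monic_scaleRoots_iff s).mpr hP
  have hQroot : eval₂ (algebraMap (Algebra.adjoin E ({t} : Set L)) L)
      (algebraMap (Algebra.adjoin E ({t} : Set L)) L s * w) (scaleRoots P s) = 0 :=
    scaleRoots_eval₂_eq_zero _ hPw
  have hlifts : scaleRoots P s ∈ lifts (inclAdjoin (O := O) (E := E) t) := by
    rw [lifts_iff_coeff_lifts]
    intro i
    rw [coeff_scaleRoots]
    rcases lt_trichotomy i d with hi | hi | hi
    · have hmem : algebraMap O L π ^ (n * (d - i)) *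
          ((P.coeff i : Algebra.adjoin E ({t} : Set L)) : L) ∈ Algebra.adjoin O ({t} : Set L) := by
        apply hm i
        have h1 : m i ≤ n := Finset.le_sup (f := m) (Finset.mem_range.mpr hi)
        have h2 : n ≤ n * (d - i) := Nat.le_mul_of_pos_right n (by omega)
        exact h1.trans h2
      refine ⟨⟨_, hmem⟩, ?_⟩
      apply Subtype.ext
      rw [coe_inclAdjoin]
      show algebraMap O L π ^ (n * (d - i)) * ((P.coeff i : Algebra.adjoin E ({t} : Set L)) : L) =
        ((P.coeff i * s ^ (d - i) : Algebra.adjoin E ({t} : Set L)) : L)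
      push_cast
      rw [pow_mul]; ring
    · subst hi
      refine ⟨1, ?_⟩
      have : P.coeff d = 1 := hP
      rw [this, Nat.sub_self, pow_zero, mul_one, map_one]
    · refine ⟨0, ?_⟩
      rw [coeff_eq_zero_of_natDegree_lt hi, zero_mul, map_zero]
  obtain ⟨q, hq, -, hqm⟩ := lifts_and_natDegree_eq_and_monic hlifts hQ
  refine ⟨n, q, hqm, ?_⟩
  have e1 : algebraMap (Algebra.adjoin E ({t} : Set L)) L s = algebraMap O L π ^ n := rfl
  rw [e1, ← hq, eval₂_map, algebraMap_comp_inclAdjoin] at hQroot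
  exact hQroot

end Clear

section Main

open scoped IntermediateField.algebraAdjoinAdjoin

variable {O E L : Type*} [CommRing O] [IsDomain O] [IsDiscreteValuationRing O]
  [Field E] [Algebra O E] [IsFractionRing O E]
  [Field L] [Algebra E L] [Algebra O L] [IsScalarTower O E L]

theorem isIntegral_pi (π : O) (t : L) :
    IsIntegral (Algebra.adjoin O ({t} : Set L)) (algebraMap O L π) := by
  rw [IsScalarTower.algebraMap_apply O (Algebra.adjoin O ({t} : Set L)) L]
  exact isIntegral_algebraMap

theorem isIntegral_pow_add_mul (π : O) (t : L) {x : L} {j : ℕ}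
    (hx : IsIntegral (Algebra.adjoin O ({t} : Set L)) (algebraMap O L π ^ j * x)) (i : ℕ) :
    IsIntegral (Algebra.adjoin O ({t} : Set L)) (algebraMap O L π ^ (j + i) * x) := by
  have h : algebraMap O L π ^ (j + i) * x = algebraMap O L π ^ i * (algebraMap O L π ^ j * x) := by
    rw [pow_add]; ring
  rw [h]
  exact ((isIntegral_pi π t).pow i).mul hx

/-- The element `π` of the chart ring. -/
def piC (π : O) (t : L) : integralClosure (Algebra.adjoin O ({t} : Set L)) L :=
  ⟨algebraMap O L π, isIntegral_pi π t⟩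

theorem coe_piC_pow (π : O) (t : L) (n : ℕ) :
    ((piC π t ^ n : integralClosure (Algebra.adjoin O ({t} : Set L)) L) : L) =
      algebraMap O L π ^ n := by
  rw [SubmonoidClass.coe_pow]
  rfl

/-- The extension of an ideal of the chart ring over `O` to the chart ring over `E`
(`= C₀[1/π]`). -/
def extIdeal (π : O) (hπ : Irreducible π) (t : L)
    (Q : Ideal (integralClosure (Algebra.adjoin O ({t} : Set L)) L)) :
    Ideal (integralClosure (Algebra.adjoin E ({t} : Set L)) L) where
  carrier := {x | ∃ n : ℕ, ∃ y ∈ Q, (y : L) = algebraMap O L π ^ n * (x : L)}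
  zero_mem' := ⟨0, 0, Q.zero_mem, by simp⟩
  add_mem' := by
    rintro x₁ x₂ ⟨n₁, y₁, hy₁, e₁⟩ ⟨n₂, y₂, hy₂, e₂⟩
    refine ⟨n₁ + n₂, piC π t ^ n₂ * y₁ + piC π t ^ n₁ * y₂,
      Q.add_mem (Q.mul_mem_left _ hy₁) (Q.mul_mem_left _ hy₂), ?_⟩
    rw [Subalgebra.coe_add, Subalgebra.coe_mul, Subalgebra.coe_mul, coe_piC_pow, coe_piC_pow,
      e₁, e₂, Subalgebra.coe_add, pow_add]
    ring
  smul_mem' := by
    rintro b x ⟨n, y, hy, e⟩
    obtain ⟨m, hm⟩ := exists_pow_mul_isIntegral π hπ t (b : L) b.2
    refine ⟨n + m, (⟨_, hm⟩ : integralClosure (Algebra.adjoin O ({t} : Set L)) L) * y,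
      Q.mul_mem_left _ hy, ?_⟩
    rw [Subalgebra.coe_mul, e, smul_eq_mul, Subalgebra.coe_mul, pow_add]
    ring

theorem mem_extIdeal (π : O) (hπ : Irreducible π) (t : L)
    (Q : Ideal (integralClosure (Algebra.adjoin O ({t} : Set L)) L))
    (x : integralClosure (Algebra.adjoin E ({t} : Set L)) L) :
    x ∈ extIdeal π hπ t Q ↔ ∃ n : ℕ, ∃ y ∈ Q, (y : L) = algebraMap O L π ^ n * (x : L) := Iff.rfl

/-- An element of the chart ring over `O` lies in `Q` as soon as a `π`-power multiple of it comes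
from the extended ideal. -/
theorem mem_of_mem_extIdeal (π : O) (hπ : Irreducible π) (t : L)
    (Q : Ideal (integralClosure (Algebra.adjoin O ({t} : Set L)) L)) (hQ : Q.IsPrime)
    (hπQ : piC π t ∉ Q)
    (x : integralClosure (Algebra.adjoin E ({t} : Set L)) L) (hx : x ∈ extIdeal π hπ t Q)
    (z : integralClosure (Algebra.adjoin O ({t} : Set L)) L) (j : ℕ)
    (hz : (z : L) = algebraMap O L π ^ j * (x : L)) : z ∈ Q := by
  obtain ⟨n, y, hy, e⟩ := hx
  have h1 : piC π t ^ n * z = piC π t ^ j * y := by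
    apply Subtype.ext
    rw [Subalgebra.coe_mul, Subalgebra.coe_mul, coe_piC_pow, coe_piC_pow, hz, e]
    ring
  have h2 : piC π t ^ n * z ∈ Q := by
    rw [h1]
    exact Q.mul_mem_left _ hy
  rcases hQ.mem_or_mem h2 with h3 | h3
  · exact absurd (hQ.mem_of_pow_mem n h3) hπQ
  · exact h3

theorem extIdeal_isPrime (π : O) (hπ : Irreducible π) (t : L)
    (Q : Ideal (integralClosure (Algebra.adjoin O ({t} : Set L)) L)) (hQ : Q.IsPrime)
    (hπQ : piC π t ∉ Q) : (extIdeal (E := E) π hπ t Q).IsPrime := by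
  refine ⟨?_, ?_⟩
  · rw [Ideal.ne_top_iff_one]
    rintro ⟨n, y, hy, e⟩
    have h1 : y = piC π t ^ n := by
      apply Subtype.ext
      rw [e, coe_piC_pow, OneMemClass.coe_one, mul_one]
    rw [h1] at hy
    exact hπQ (hQ.mem_of_pow_mem n hy)
  · intro x₁ x₂ h12
    obtain ⟨m₁, hm₁⟩ := exists_pow_mul_isIntegral π hπ t (x₁ : L) x₁.2
    obtain ⟨m₂, hm₂⟩ := exists_pow_mul_isIntegral π hπ t (x₂ : L) x₂.2
    set z₁ : integralClosure (Algebra.adjoin O ({t} : Set L)) L := ⟨_, hm₁⟩ with hz₁
    set z₂ : integralClosure (Algebra.adjoin O ({t} : Set L)) L := ⟨_, hm₂⟩ with hz₂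
    have h3 : z₁ * z₂ ∈ Q := by
      refine mem_of_mem_extIdeal π hπ t Q hQ hπQ (x₁ * x₂) h12 (z₁ * z₂) (m₁ + m₂) ?_
      rw [Subalgebra.coe_mul, Subalgebra.coe_mul, pow_add]
      show algebraMap O L π ^ m₁ * (x₁ : L) * (algebraMap O L π ^ m₂ * (x₂ : L)) = _
      ring
    rcases hQ.mem_or_mem h3 with h4 | h4
    · exact Or.inl ⟨m₁, z₁, h4, rfl⟩
    · exact Or.inr ⟨m₂, z₂, h4, rfl⟩

end Main

section Final

open IntermediateField
open scoped IntermediateField.algebraAdjoinAdjoin

variable {O E L : Type*} [CommRing O] [IsDomain O] [IsDiscreteValuationRing O]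
  [Field E] [CharZero E] [Algebra O E] [IsFractionRing O E]
  [Field L] [Algebra E L] [Algebra O L] [IsScalarTower O E L]

/-- The element `t - c` of `O[t]`. -/
def subElt (t : L) (c : O) : Algebra.adjoin O ({t} : Set L) :=
  ⟨t, Algebra.self_mem_adjoin_singleton O t⟩ - algebraMap O _ c

theorem coe_subElt (t : L) (c : O) :
    ((subElt t c : Algebra.adjoin O ({t} : Set L)) : L) = t - algebraMap O L c := by
  rw [subElt, AddSubgroupClass.coe_sub]
  rfl

/-- The element `t - c` of the chart ring. -/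
theorem coe_algebraMap_subElt (t : L) (c : O) :
    ((algebraMap (Algebra.adjoin O ({t} : Set L))
      (integralClosure (Algebra.adjoin O ({t} : Set L)) L) (subElt t c) :
        integralClosure (Algebra.adjoin O ({t} : Set L)) L) : L) = t - algebraMap O L c := by
  rw [← coe_subElt]
  rfl

/-- `π` does not lie in a prime of the chart ring lying over `(t - c)`. -/
theorem piC_not_mem (π : O) (hπ0 : π ≠ 0) (t : L) (ht : Transcendental E t) (c : O)
    (Q : Ideal (integralClosure (Algebra.adjoin O ({t} : Set L)) L))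
    (hQc : Q.comap (algebraMap (Algebra.adjoin O ({t} : Set L))
      (integralClosure (Algebra.adjoin O ({t} : Set L)) L)) = Ideal.span {subElt t c}) :
    piC π t ∉ Q := by
  intro hmem
  have h1 : algebraMap O (Algebra.adjoin O ({t} : Set L)) π ∈ Ideal.span {subElt t c} := by
    rw [← hQc, Ideal.mem_comap]
    have h0 : algebraMap (Algebra.adjoin O ({t} : Set L))
        (integralClosure (Algebra.adjoin O ({t} : Set L)) L)
        (algebraMap O (Algebra.adjoin O ({t} : Set L)) π) = piC π t := Subtype.ext rfl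
    rw [h0]
    exact hmem
  obtain ⟨r, hr⟩ := Ideal.mem_span_singleton'.mp h1
  obtain ⟨g, hg⟩ : ∃ g : O[X], aeval t g = (r : L) := by
    have h : (r : L) ∈ (aeval t : O[X] →ₐ[O] L).range := by
      rw [← Algebra.adjoin_singleton_eq_range_aeval]
      exact r.2
    exact h
  have hrL : (r : L) * (t - algebraMap O L c) = algebraMap O L π := by
    have h := congrArg (fun z : Algebra.adjoin O ({t} : Set L) => (z : L)) hr
    simp only [Subalgebra.coe_mul, coe_subElt] at h
    rw [h]
    rfl
  have h2 : aeval t ((g * (X - C c) - C π).map (algebraMap O E)) = 0 := by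
    rw [aeval_map_algebraMap, map_sub, map_mul, hg, aeval_C, map_sub, aeval_X, aeval_C, hrL,
      sub_self]
  have h3 := (transcendental_iff.mp ht) _ h2
  have h4 : g * (X - C c) - C π = 0 := by
    apply Polynomial.map_injective _ (IsFractionRing.injective O E)
    rw [h3, Polynomial.map_zero]
  have h5 := congrArg (Polynomial.eval c) h4
  simp at h5
  exact hπ0 h5

/-- **The tameness provider, generic form.**  If every place of `L / E` over `t = c` has
ramification index dividing `e`, every prime of the chart ring over the horizontal prime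
`(t - c)` satisfies `Tame.TameAt (t - c) e`. -/
theorem tameAt_of_places (π : O) (hπ : Irreducible π) (t : L) (ht : Transcendental E t)
    [FiniteDimensional (IntermediateField.adjoin E {t}) L] (c : O) (e : ℕ)
    (hv : ∀ v : Place E L, 0 < v.ord (t - algebraMap O L c) →
      v.ord (t - algebraMap O L c) ∣ (e : ℤ))
    (Q : Ideal (integralClosure (Algebra.adjoin O ({t} : Set L)) L)) (hQ : Q.IsPrime)
    (hQc : Q.comap (algebraMap (Algebra.adjoin O ({t} : Set L))
      (integralClosure (Algebra.adjoin O ({t} : Set L)) L)) = Ideal.span {subElt t c}) :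
    Tame.TameAt (algebraMap (Algebra.adjoin O ({t} : Set L))
      (integralClosure (Algebra.adjoin O ({t} : Set L)) L) (subElt t c)) e Q := by
  classical
  have hπQ : piC π t ∉ Q := piC_not_mem (E := E) π hπ.ne_zero t ht c Q hQc
  -- the Dedekind domain over `E`
  have hPID : IsPrincipalIdealRing (Algebra.adjoin E ({t} : Set L)) :=
    Fermat.Agent.S30.Ramif.adjoin_isPrincipalIdealRing E t ht
  have hDedB : IsDedekindDomain (integralClosure (Algebra.adjoin E ({t} : Set L)) L) :=
    integralClosure.isDedekindDomain (Algebra.adjoin E {t}) E⟮t⟯ L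
  have hFracB : IsFractionRing (integralClosure (Algebra.adjoin E ({t} : Set L)) L) L :=
    integralClosure.isFractionRing_of_finite_extension E⟮t⟯ L
  have hTower : IsScalarTower E (integralClosure (Algebra.adjoin E ({t} : Set L)) L) L :=
    IsScalarTower.of_algebraMap_eq (fun c => by simp [Algebra.algebraMap_eq_smul_one])
  have hPprime := extIdeal_isPrime (E := E) π hπ t Q hQ hπQ
  -- the element `t - c`
  have hsubQ : algebraMap (Algebra.adjoin O ({t} : Set L))
      (integralClosure (Algebra.adjoin O ({t} : Set L)) L) (subElt t c) ∈ Q := by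
    have h : subElt t c ∈ Q.comap (algebraMap (Algebra.adjoin O ({t} : Set L))
        (integralClosure (Algebra.adjoin O ({t} : Set L)) L)) := by
      rw [hQc]
      exact Ideal.mem_span_singleton_self _
    exact h
  have hbint : IsIntegral (Algebra.adjoin E ({t} : Set L)) (t - algebraMap O L c) := by
    refine isIntegral_adjoin_of_isIntegral (O := O) t ?_
    rw [← coe_subElt]
    show IsIntegral _ (algebraMap (Algebra.adjoin O ({t} : Set L)) L (subElt t c))
    exact isIntegral_algebraMap
  set b0 : integralClosure (Algebra.adjoin E ({t} : Set L)) L := ⟨t - algebraMap O L c, hbint⟩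
    with hb0def
  have hb0P : b0 ∈ extIdeal π hπ t Q :=
    ⟨0, _, hsubQ, by rw [pow_zero, one_mul]; exact coe_algebraMap_subElt t c⟩
  have hb0L : t - algebraMap O L c ≠ 0 := by
    intro h
    apply ht
    rw [sub_eq_zero.mp h, IsScalarTower.algebraMap_apply O E L]
    exact isAlgebraic_algebraMap _
  have hb0 : b0 ≠ 0 := fun h => hb0L (congrArg Subtype.val h)
  let w : HeightOneSpectrum (integralClosure (Algebra.adjoin E ({t} : Set L)) L) :=
    ⟨extIdeal π hπ t Q, hPprime, fun hbot => hb0 (by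
      have h := hb0P
      rw [hbot] at h
      exact (Ideal.mem_bot).mp h)⟩
  have hwP : ∀ x, x ∈ w.asIdeal ↔ x ∈ extIdeal π hπ t Q := fun x => Iff.rfl
  -- the order of `t - c` at the place of `w`
  set v : Place E L := Place.ofHeightOneSpectrum (K := E) (F := L) w with hvdef
  have hcoe : algebraMap (integralClosure (Algebra.adjoin E ({t} : Set L)) L) L b0 =
      t - algebraMap O L c := rfl
  have hpos : 0 < v.ord (t - algebraMap O L c) := by
    have h := (Fermat.Agent.S30.Ramif.mem_pow_iff_le_ord (E := E) (L := L) w hb0 1).mp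
      (by rw [pow_one]; exact hb0P)
    rw [hcoe] at h
    exact lt_of_lt_of_le (by norm_num) h
  have hdvd := hv v hpos
  obtain ⟨hk, hk1⟩ := Fermat.Agent.S30.Ramif.mem_pow_ord_and_not_mem_succ (E := E) (L := L) w hb0
  rw [hcoe] at hk hk1
  set k : ℕ := (v.ord (t - algebraMap O L c)).toNat with hkdef
  have hkcast : (k : ℤ) = v.ord (t - algebraMap O L c) := Int.toNat_of_nonneg hpos.le
  have hke : k ∣ e := by
    rw [← Int.natCast_dvd_natCast, hkcast]
    exact hdvd
  obtain ⟨ϖ, a, ε, hϖP, haP, hεP, hab, hdiv⟩ := exists_uniformiser_data w b0 k hk hk1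
  -- clear denominators
  obtain ⟨nϖ, hnϖ⟩ := exists_pow_mul_isIntegral π hπ t (ϖ : L) ϖ.2
  obtain ⟨ma, hma⟩ := exists_pow_mul_isIntegral π hπ t (a : L) a.2
  obtain ⟨mε, hmε⟩ := exists_pow_mul_isIntegral π hπ t (ε : L) ε.2
  have hma' : IsIntegral (Algebra.adjoin O ({t} : Set L))
      (algebraMap O L π ^ (nϖ * k + (ma + mε)) * (a : L)) := by
    have h := isIntegral_pow_add_mul π t hma (mε + nϖ * k)
    have e1 : ma + (mε + nϖ * k) = nϖ * k + (ma + mε) := by ring
    rwa [e1] at h
  have hmε' : IsIntegral (Algebra.adjoin O ({t} : Set L))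
      (algebraMap O L π ^ (ma + mε) * (ε : L)) := by
    have h := isIntegral_pow_add_mul π t hmε ma
    rwa [add_comm mε ma] at h
  set t0 : integralClosure (Algebra.adjoin O ({t} : Set L)) L := ⟨_, hnϖ⟩ with ht0
  set a0 : integralClosure (Algebra.adjoin O ({t} : Set L)) L := ⟨_, hma'⟩ with ha0
  set ε0 : integralClosure (Algebra.adjoin O ({t} : Set L)) L := ⟨_, hmε'⟩ with hε0
  have habL : (a : L) * (t - algebraMap O L c) = (ε : L) * (ϖ : L) ^ k := by
    have h := congrArg (fun z : integralClosure (Algebra.adjoin E ({t} : Set L)) L => (z : L)) hab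
    simpa only [Subalgebra.coe_mul, SubmonoidClass.coe_pow] using h
  refine ⟨k, t0, a0, ε0, hke, ?_, ?_, ?_, ?_, ?_⟩
  · exact mem_of_mem_extIdeal π hπ t Q hQ hπQ ϖ ((hwP ϖ).mp hϖP) t0 nϖ rfl
  · intro h
    exact haP ((hwP a).mpr ⟨_, a0, h, rfl⟩)
  · intro h
    exact hεP ((hwP ε).mpr ⟨_, ε0, h, rfl⟩)
  · apply Subtype.ext
    rw [Subalgebra.coe_mul, Subalgebra.coe_mul, SubmonoidClass.coe_pow, coe_algebraMap_subElt]
    show algebraMap O L π ^ (nϖ * k + (ma + mε)) * (a : L) * (t - algebraMap O L c) =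
      algebraMap O L π ^ (ma + mε) * (ε : L) * (algebraMap O L π ^ nϖ * (ϖ : L)) ^ k
    rw [mul_assoc, habL, pow_add, mul_pow, ← pow_mul]
    ring
  · intro x hx
    have hxint : IsIntegral (Algebra.adjoin E ({t} : Set L)) (x : L) :=
      isIntegral_adjoin_of_isIntegral (O := O) t x.2
    set xB : integralClosure (Algebra.adjoin E ({t} : Set L)) L := ⟨(x : L), hxint⟩ with hxB
    have hxP : xB ∈ w.asIdeal := (hwP xB).mpr ⟨0, x, hx, by rw [pow_zero, one_mul]⟩
    obtain ⟨s, hsP, y, hsy⟩ := hdiv xB hxP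
    obtain ⟨ms, hms⟩ := exists_pow_mul_isIntegral π hπ t (s : L) s.2
    obtain ⟨my, hmy⟩ := exists_pow_mul_isIntegral π hπ t (y : L) y.2
    have hms' : IsIntegral (Algebra.adjoin O ({t} : Set L))
        (algebraMap O L π ^ (ms + my + nϖ) * (s : L)) := by
      have h := isIntegral_pow_add_mul π t hms (my + nϖ)
      rwa [← add_assoc] at h
    have hmy' : IsIntegral (Algebra.adjoin O ({t} : Set L))
        (algebraMap O L π ^ (ms + my) * (y : L)) := by
      have h := isIntegral_pow_add_mul π t hmy ms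
      rwa [add_comm my ms] at h
    have hsyL : (s : L) * (x : L) = (ϖ : L) * (y : L) := by
      have h := congrArg (fun z : integralClosure (Algebra.adjoin E ({t} : Set L)) L => (z : L)) hsy
      simpa only [Subalgebra.coe_mul] using h
    refine ⟨⟨_, hms'⟩, ?_, ⟨_, hmy'⟩, ?_⟩
    · intro h
      exact hsP ((hwP s).mpr ⟨_, _, h, rfl⟩)
    · apply Subtype.ext
      rw [Subalgebra.coe_mul, Subalgebra.coe_mul]
      show algebraMap O L π ^ (ms + my + nϖ) * (s : L) * (x : L) =
        algebraMap O L π ^ nϖ * (ϖ : L) * (algebraMap O L π ^ (ms + my) * (y : L))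
      rw [mul_assoc, hsyL, pow_add]
      ring

end Final

end Fermat.Agent.S30.Model.SFN.TameProvider
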