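import Fermat.Agent.S30.Model.SFN.Descent

/-!
# Special fibre normal: packaging adapters

`RegAt p M` ("`M` is generated by `p` and one more element, locally at `M`") is the exit shape of
the regularity bricks (`RegNB.RegAt`, `SFN.RegAt`: same body).  This file converts it into the two
other shapes consumers ask for:

* `exists_uniform_of_regAt` : the multiplier `s ∉ M` can be chosen uniformly in `m ∈ M`
  (`C` Noetherian);
* `normAt_of_regAt` : `Prime p`, `RegAt p M` ⟹ `NormAt p M`;
* `isIntegrallyClosed_of_regAt` : `Prime p` and `RegAt p M` at every maximal `M ∋ p` ⟹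
  `IsIntegrallyClosed (C ⧸ span {p})`;
* `isDedekindDomain_of_regAt` : if moreover `C ⧸ span {p}` has Krull dimension `≤ 1`, it is a
  Dedekind domain.

Mathlib only (through `SFN.Basic`, `SFN.Descent`).
-/

set_option autoImplicit false

namespace Fermat.Agent.S30.Model.SFN

variable {C : Type*} [CommRing C]

/-- In a Noetherian ring the multiplier of a "locally generated by `p, z`" statement is uniform. -/
theorem exists_uniform_of_regAt [IsNoetherianRing C] (p z : C) (M : Ideal C) [hMp : M.IsPrime]
    (h : ∀ m ∈ M, ∃ s, s ∉ M ∧ s * m ∈ Ideal.span {p, z}) :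
    ∃ e, e ∉ M ∧ ∀ m ∈ M, e * m ∈ Ideal.span {p, z} := by
  classical
  obtain ⟨T, hT⟩ := (isNoetherianRing_iff_ideal_fg C).mp inferInstance M
  have hTM : ∀ t ∈ T, t ∈ M := fun t ht => hT ▸ Ideal.subset_span ht
  choose! s hs using h
  refine ⟨∏ t ∈ T, s t, ?_, ?_⟩
  · intro hmem
    obtain ⟨t, ht, hst⟩ := (Ideal.IsPrime.prod_mem_iff).mp hmem
    exact (hs t (hTM t ht)).1 hst
  · intro m hm
    rw [← hT] at hm
    refine Submodule.span_induction (p := fun m _ => (∏ t ∈ T, s t) * m ∈ Ideal.span {p, z})
      ?_ ?_ ?_ ?_ hm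
    · intro t ht
      have ht' : t ∈ T := ht
      have h1 : s t * t ∈ Ideal.span {p, z} := (hs t (hTM t ht')).2
      have h2 : (∏ t ∈ T, s t) * t = (∏ u ∈ T.erase t, s u) * (s t * t) := by
        rw [← Finset.mul_prod_erase T s ht']; ring
      rw [h2]
      exact Ideal.mul_mem_left _ _ h1
    · simp
    · intro x y _ _ hx hy
      rw [mul_add]
      exact Ideal.add_mem _ hx hy
    · intro a x _ hx
      have h2 : (∏ t ∈ T, s t) * (a • x) = a * ((∏ t ∈ T, s t) * x) := by
        rw [smul_eq_mul]; ring
      rw [h2]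
      exact Ideal.mul_mem_left _ _ hx

/-- `RegAt` implies `NormAt` when `p` is a prime element. -/
theorem normAt_of_regAt [IsNoetherianRing C] (p : C) (hp : Prime p) (M : Ideal C)
    (hM : M.IsMaximal) (hpM : p ∈ M) (h : RegAt p M) : NormAt p M := by
  classical
  obtain ⟨z, hzM, hz⟩ := h
  have := hM.isPrime
  obtain ⟨e, heM, he⟩ := exists_uniform_of_regAt p z M hz
  refine normAt_of_principal p z M hM hpM hzM ⟨e, heM, fun m hm => ?_⟩ ?_
  · obtain ⟨a, b, hab⟩ := Ideal.mem_span_pair.mp (he m hm)
    exact ⟨a, b, by rw [← hab]; ring⟩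
  · by_cases hpz : p ∣ z
    · exact Or.inr hpz
    · exact Or.inl fun x hx => (hp.dvd_or_dvd hx).resolve_left hpz

/-- **Normality of the special fibre from pointwise regularity.** -/
theorem isIntegrallyClosed_of_regAt [IsNoetherianRing C] (p : C) (hp : Prime p)
    (h : ∀ M : Ideal C, M.IsMaximal → p ∈ M → RegAt p M) :
    IsIntegrallyClosed (C ⧸ Ideal.span {p}) :=
  isIntegrallyClosed_of_normAt p hp fun M hM hpM => normAt_of_regAt p hp M hM hpM (h M hM hpM)

/-- **The special fibre is a Dedekind domain** as soon as it is pointwise regular and of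
dimension at most one. -/
theorem isDedekindDomain_of_regAt [IsNoetherianRing C] (p : C) (hp : Prime p)
    (hdim : Ring.DimensionLEOne (C ⧸ Ideal.span {p}))
    (h : ∀ M : Ideal C, M.IsMaximal → p ∈ M → RegAt p M) :
    IsDedekindDomain (C ⧸ Ideal.span {p}) := by
  have : (Ideal.span {p}).IsPrime := (Ideal.span_singleton_prime hp.ne_zero).mpr hp
  have : IsDomain (C ⧸ Ideal.span {p}) := Ideal.Quotient.isDomain _
  have := isIntegrallyClosed_of_regAt p hp h
  have := hdim
  exact { }

end Fermat.Agent.S30.Model.SFN
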