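import Mathlib

/-!
# SFN ("special fibre normal"): elementwise definitions and the abstract local criteria

`C` a commutative ring (a chart of the normal model), `p ∈ C` (the uniformiser `π`), `M` a maximal
ideal of `C` containing `p` (a closed point of the special fibre).

* `RegAt p M`  : `M · C_M = (p, z)` for some `z ∈ M` (elementwise), i.e. the special fibre is
  regular at `M`.
* `NormAt p M` : `(C / p)_M` is reduced and integrally closed in its total ring of fractions
  (elementwise: an integral equation for `a / b` modulo `p` forces `b ∣ s a` modulo `p` for some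
  `s ∉ M`).
* `normAt_of_principal` : if `M · C_M = (p, σ)` and `σ` is a non-zero-divisor modulo `p` (or
  `p ∣ σ`), then `NormAt p M`  (a Noetherian local ring whose maximal ideal is generated by a
  non-zero-divisor is a discrete valuation ring).
* `normAt_of_isLocalization` : `NormAt` descends from a localisation.
* `normAt_of_retraction` : `NormAt` descends along an integral extension `C → C'` having a
  `C`-linear retraction (e.g. `e⁻¹ · trace` for a tame Kummer cover).
* `isIntegrallyClosed_of_normAt` : if `p` is prime and `NormAt p M` holds at every maximal ideal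
  `M ∋ p`, then `C ⧸ (p)` is an integrally closed domain.
* `regAt_of_isDedekindDomain` : if `C ⧸ (p)` is a Dedekind domain then `RegAt p M` for every
  maximal ideal `M ∋ p`.
-/

set_option autoImplicit false

namespace Fermat.Agent.S30.Model.SFN

open IsLocalRing

section Defs

variable {C : Type*} [CommRing C]

/-- `M · C_M = (p, z)` for some `z ∈ M`, elementwise (same body as `RegNB.RegAt`). -/
def RegAt (p : C) (M : Ideal C) : Prop :=
  ∃ z ∈ M, ∀ m ∈ M, ∃ s, s ∉ M ∧ s * m ∈ Ideal.span {p, z}

/-- `(C / p)_M` is reduced and integrally closed in its total ring of fractions, elementwise. -/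
def NormAt (p : C) (M : Ideal C) : Prop :=
  ∀ (a b : C) (n : ℕ) (c : ℕ → C),
    p ∣ (a ^ n + ∑ k ∈ Finset.range n, c k * a ^ k * b ^ (n - k)) →
    ∃ s, s ∉ M ∧ ∃ y, p ∣ (s * a - b * y)

end Defs

section LocalRing

variable {D : Type*} [CommRing D] [IsNoetherianRing D] [IsLocalRing D]

/-- A Noetherian local ring whose maximal ideal is generated by a non-zero-divisor (or by `0`)
is a domain. -/
theorem isDomain_of_maximalIdeal_eq_span (σ : D) (hσ : maximalIdeal D = Ideal.span {σ})
    (hreg : σ ∈ nonZeroDivisors D ∨ σ = 0) : IsDomain D := by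
  classical
  rcases hreg with hreg | rfl
  · have hσm : σ ∈ maximalIdeal D := by rw [hσ]; exact Ideal.mem_span_singleton_self σ
    have key : ∀ x : D, x ≠ 0 → ∃ (n : ℕ) (u : D), IsUnit u ∧ x = u * σ ^ n := by
      intro x hx
      have hinf : (⨅ i : ℕ, maximalIdeal D ^ i) = ⊥ :=
        Ideal.iInf_pow_eq_bot_of_isLocalRing _ Ideal.IsPrime.ne_top'
      have hex : ∃ n, x ∉ maximalIdeal D ^ n := by
        by_contra hcon
        push Not at hcon
        apply hx
        have h1 : x ∈ (⨅ i : ℕ, maximalIdeal D ^ i) := by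
          rw [Ideal.mem_iInf]; exact hcon
        rw [hinf] at h1
        exact h1
      have hn : x ∉ maximalIdeal D ^ Nat.find hex := Nat.find_spec hex
      have hn0 : Nat.find hex ≠ 0 := by
        intro h0
        apply hn
        rw [h0, pow_zero, Ideal.one_eq_top]
        exact Submodule.mem_top
      obtain ⟨m, hm⟩ : ∃ m, Nat.find hex = m + 1 := Nat.exists_eq_succ_of_ne_zero hn0
      have hmem : x ∈ maximalIdeal D ^ m := by
        by_contra h
        exact Nat.find_min hex (by omega : m < Nat.find hex) h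
      rw [hσ, Ideal.span_singleton_pow, Ideal.mem_span_singleton'] at hmem
      obtain ⟨u, hu⟩ := hmem
      refine ⟨m, u, ?_, hu.symm⟩
      by_contra hnu
      have humem : u ∈ maximalIdeal D := (IsLocalRing.mem_maximalIdeal u).mpr hnu
      apply hn
      rw [hm, pow_succ', ← hu]
      exact Ideal.mul_mem_mul humem (Ideal.pow_mem_pow hσm m)
    have hpow : ∀ n, σ ^ n ∈ nonZeroDivisors D := fun n => pow_mem hreg n
    have hnzd : NoZeroDivisors D := by
      refine ⟨fun {x y} hxy => ?_⟩
      by_contra hcon
      push Not at hcon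
      obtain ⟨n, u, hu, rfl⟩ := key x hcon.1
      obtain ⟨m, v, hv, rfl⟩ := key y hcon.2
      have h1 : (u * v) * σ ^ (n + m) = 0 := by
        rw [← hxy, pow_add]; ring
      have h2 : σ ^ (n + m) = 0 := by
        have := (hu.mul hv).mul_right_eq_zero.mp h1
        exact this
      have h3 := (mem_nonZeroDivisors_iff.mp (hpow (n + m))).2 1 (by rw [one_mul, h2])
      exact one_ne_zero h3
    exact NoZeroDivisors.to_isDomain D
  · have h0 : maximalIdeal D = ⊥ := by rw [hσ, Ideal.span_singleton_eq_bot]
    exact (IsLocalRing.isField_iff_maximalIdeal_eq.mpr h0).isDomain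

/-- A Noetherian local domain with principal maximal ideal is integrally closed. -/
theorem isIntegrallyClosed_of_maximalIdeal_eq_span [IsDomain D] (σ : D)
    (hσ : maximalIdeal D = Ideal.span {σ}) : IsIntegrallyClosed D := by
  have h43 : Submodule.IsPrincipal (maximalIdeal D) →
      (IsIntegrallyClosed D ∧ ∀ P : Ideal D, P ≠ ⊥ → P.IsPrime → P = maximalIdeal D) :=
    ((tfae_of_isNoetherianRing_of_isLocalRing_of_isDomain D).out 4 3).mp
  exact (h43 ⟨⟨σ, hσ⟩⟩).1

end LocalRing

section Quot

variable {C : Type*} [CommRing C]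

/-- The image of a maximal ideal containing `p` in `C ⧸ (p)` is a maximal ideal. -/
theorem map_mk_isMaximal (p : C) (M : Ideal C) (hM : M.IsMaximal) (hpM : p ∈ M) :
    (M.map (Ideal.Quotient.mk (Ideal.span {p}))).IsMaximal := by
  have hle : Ideal.span {p} ≤ M := (Ideal.span_singleton_le_iff_mem M).mpr hpM
  rcases Ideal.map_eq_top_or_isMaximal_of_surjective (Ideal.Quotient.mk (Ideal.span {p}))
    Ideal.Quotient.mk_surjective hM with h | h
  · exfalso
    have h1 : (Ideal.Quotient.mk (Ideal.span {p})) 1 ∈
        M.map (Ideal.Quotient.mk (Ideal.span {p})) := by rw [h]; exact Submodule.mem_top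
    exact hM.ne_top ((Ideal.eq_top_iff_one M).mpr ((Ideal.mem_quotient_iff_mem hle).mp h1))
  · exact h

/-- In an integrally closed domain, an integral equation for `α / β` forces `β ∣ α`
(also when `β = 0`). -/
theorem exists_eq_mul_of_integral_rel {D : Type*} [CommRing D] [IsDomain D] [IsIntegrallyClosed D]
    (α β : D) (n : ℕ) (γ : ℕ → D)
    (hrel : α ^ n + ∑ k ∈ Finset.range n, γ k * α ^ k * β ^ (n - k) = 0) :
    ∃ d : D, α = β * d := by
  classical
  by_cases hb : β = 0
  · refine ⟨0, ?_⟩
    rw [mul_zero]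
    have h2 : α ^ n = 0 := by
      have hsum : ∑ k ∈ Finset.range n, γ k * α ^ k * β ^ (n - k) = 0 := by
        refine Finset.sum_eq_zero fun k hk => ?_
        have hk' : n - k ≠ 0 := by
          have := Finset.mem_range.mp hk; omega
        rw [hb, zero_pow hk', mul_zero]
      rwa [hsum, add_zero] at hrel
    have hn : n ≠ 0 := by
      rintro rfl
      rw [pow_zero] at h2
      exact one_ne_zero h2
    exact (pow_eq_zero_iff hn).mp h2
  · let K := FractionRing D
    have hbK : algebraMap D K β ≠ 0 :=
      (map_ne_zero_iff _ (IsFractionRing.injective D K)).mpr hb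
    have hint : IsIntegral D (algebraMap D K α / algebraMap D K β) := by
      let P : Polynomial D := Polynomial.X ^ n +
        ∑ k ∈ Finset.range n, Polynomial.C (γ k) * Polynomial.X ^ k
      have hmemLT : (∑ k ∈ Finset.range n, Polynomial.C (γ k) * Polynomial.X ^ k) ∈
          Polynomial.degreeLT D n :=
        Submodule.sum_mem _ fun k hk => Polynomial.mem_degreeLT.mpr
          ((Polynomial.degree_C_mul_X_pow_le k _).trans_lt
            (WithBot.coe_lt_coe.mpr (Finset.mem_range.mp hk)))
      refine ⟨P, Polynomial.monic_X_pow_add (Polynomial.mem_degreeLT.mp hmemLT), ?_⟩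
      have hev : Polynomial.eval₂ (algebraMap D K) (algebraMap D K α / algebraMap D K β) P =
          (algebraMap D K α / algebraMap D K β) ^ n +
            ∑ k ∈ Finset.range n, algebraMap D K (γ k) *
              (algebraMap D K α / algebraMap D K β) ^ k := by
        simp only [P, Polynomial.eval₂_add, Polynomial.eval₂_pow, Polynomial.eval₂_X,
          Polynomial.eval₂_finsetSum, Polynomial.eval₂_mul, Polynomial.eval₂_C]
      rw [hev]
      have h3 : ((algebraMap D K α / algebraMap D K β) ^ n +
          ∑ k ∈ Finset.range n, algebraMap D K (γ k) *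
            (algebraMap D K α / algebraMap D K β) ^ k) * algebraMap D K β ^ n = 0 := by
        have h4 : algebraMap D K (α ^ n + ∑ k ∈ Finset.range n, γ k * α ^ k * β ^ (n - k)) = 0 := by
          rw [hrel, map_zero]
        rw [map_add, map_sum, map_pow] at h4
        rw [add_mul, Finset.sum_mul, ← h4]
        congr 1
        · rw [div_pow, div_mul_cancel₀ _ (pow_ne_zero n hbK)]
        · refine Finset.sum_congr rfl fun k hk => ?_
          have hk' : k ≤ n := (Finset.mem_range.mp hk).le
          rw [map_mul, map_mul, map_pow, map_pow, div_pow]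
          have e : algebraMap D K β ^ n = algebraMap D K β ^ k * algebraMap D K β ^ (n - k) := by
            rw [← pow_add, Nat.add_sub_cancel' hk']
          rw [e, mul_assoc, ← mul_assoc (_ / _), div_mul_cancel₀ _ (pow_ne_zero k hbK), mul_assoc]
      exact (mul_eq_zero.mp h3).resolve_right (pow_ne_zero n hbK)
    obtain ⟨d, hd⟩ := IsIntegrallyClosed.isIntegral_iff.mp hint
    refine ⟨d, ?_⟩
    apply IsFractionRing.injective D K
    rw [map_mul, hd, mul_div_cancel₀ _ hbK]

/-- **From the localisation to the elementwise statement.**  If a localisation `D` of `C ⧸ (p)`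
at the image of `M` is an integrally closed domain, then `NormAt p M`. -/
theorem normAt_of_isIntegrallyClosed (p : C) (M : Ideal C) (hM : M.IsMaximal) (hpM : p ∈ M)
    [hprime : (M.map (Ideal.Quotient.mk (Ideal.span {p}))).IsPrime]
    (D : Type*) [CommRing D] [Algebra (C ⧸ Ideal.span {p}) D]
    [IsLocalization.AtPrime D (M.map (Ideal.Quotient.mk (Ideal.span {p})))]
    [IsDomain D] [IsIntegrallyClosed D] :
    NormAt p M := by
  classical
  have hle : Ideal.span {p} ≤ M := (Ideal.span_singleton_le_iff_mem M).mpr hpM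
  let φ : C →+* D := (algebraMap (C ⧸ Ideal.span {p}) D).comp (Ideal.Quotient.mk (Ideal.span {p}))
  have hφ : ∀ x : C, φ x = algebraMap (C ⧸ Ideal.span {p}) D
      (Ideal.Quotient.mk (Ideal.span {p}) x) := fun x => rfl
  intro a b n c hdiv
  have hrel : φ a ^ n + ∑ k ∈ Finset.range n, φ (c k) * φ a ^ k * φ b ^ (n - k) = 0 := by
    obtain ⟨w, hw⟩ := hdiv
    have h1 : φ (a ^ n + ∑ k ∈ Finset.range n, c k * a ^ k * b ^ (n - k)) = 0 := by
      rw [hw, map_mul]
      have : φ p = 0 := by
        rw [hφ, Ideal.Quotient.eq_zero_iff_mem.mpr (Ideal.mem_span_singleton_self p), map_zero]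
      rw [this, zero_mul]
    simpa [map_add, map_sum, map_mul, map_pow] using h1
  obtain ⟨d, hd⟩ := exists_eq_mul_of_integral_rel (φ a) (φ b) n (fun k => φ (c k)) hrel
  -- clear denominators
  obtain ⟨⟨yb, tb⟩, hyt⟩ := IsLocalization.surj
    (M.map (Ideal.Quotient.mk (Ideal.span {p}))).primeCompl d
  obtain ⟨y, rfl⟩ := Ideal.Quotient.mk_surjective yb
  obtain ⟨t, ht⟩ := Ideal.Quotient.mk_surjective (tb : C ⧸ Ideal.span {p})
  have h5 : algebraMap (C ⧸ Ideal.span {p}) D
      (Ideal.Quotient.mk (Ideal.span {p}) (t * a)) =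
      algebraMap (C ⧸ Ideal.span {p}) D (Ideal.Quotient.mk (Ideal.span {p}) (b * y)) := by
    have e1 : algebraMap (C ⧸ Ideal.span {p}) D (Ideal.Quotient.mk (Ideal.span {p}) (t * a)) =
        algebraMap (C ⧸ Ideal.span {p}) D (tb : C ⧸ Ideal.span {p}) * φ a := by
      rw [map_mul, map_mul, ht, hφ]
    have e2 : algebraMap (C ⧸ Ideal.span {p}) D (Ideal.Quotient.mk (Ideal.span {p}) (b * y)) =
        φ b * algebraMap (C ⧸ Ideal.span {p}) D (Ideal.Quotient.mk (Ideal.span {p}) y) := by
      rw [map_mul, map_mul, hφ]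
    rw [e1, e2, hd, ← hyt]
    ring
  obtain ⟨⟨ub, hub⟩, hu⟩ := (IsLocalization.eq_iff_exists
    (M.map (Ideal.Quotient.mk (Ideal.span {p}))).primeCompl D).mp h5
  obtain ⟨u, rfl⟩ := Ideal.Quotient.mk_surjective ub
  have hnotM : ∀ v : C, Ideal.Quotient.mk (Ideal.span {p}) v ∉
      M.map (Ideal.Quotient.mk (Ideal.span {p})) → v ∉ M := fun v hv hvM =>
    hv (Ideal.mem_map_of_mem _ hvM)
  have htM : t ∉ M := hnotM t (by rw [ht]; exact tb.2)
  have huM : u ∉ M := hnotM u hub
  refine ⟨u * t, fun h => (hM.isPrime.mem_or_mem h).elim huM htM, u * y, ?_⟩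
  have h6 : Ideal.Quotient.mk (Ideal.span {p}) (u * t * a - b * (u * y)) = 0 := by
    have : Ideal.Quotient.mk (Ideal.span {p}) u * Ideal.Quotient.mk (Ideal.span {p}) (t * a) =
        Ideal.Quotient.mk (Ideal.span {p}) u * Ideal.Quotient.mk (Ideal.span {p}) (b * y) := hu
    rw [map_sub, sub_eq_zero]
    calc Ideal.Quotient.mk (Ideal.span {p}) (u * t * a)
        = Ideal.Quotient.mk (Ideal.span {p}) u * Ideal.Quotient.mk (Ideal.span {p}) (t * a) := by
          rw [← map_mul, mul_assoc]
      _ = Ideal.Quotient.mk (Ideal.span {p}) u * Ideal.Quotient.mk (Ideal.span {p}) (b * y) := this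
      _ = Ideal.Quotient.mk (Ideal.span {p}) (b * (u * y)) := by
          rw [← map_mul]; congr 1; ring
  exact Ideal.mem_span_singleton.mp (Ideal.Quotient.eq_zero_iff_mem.mp h6)

/-- **Principal maximal ideal ⇒ normal.**  `C` Noetherian, `M` a maximal ideal containing `p`
and `σ`, with `M · C_M = (p, σ)` (uniformly: `e M ⊆ (p, σ)` for one `e ∉ M`) and `σ` a
non-zero-divisor modulo `p` (or `p ∣ σ`).  Then `(C/p)_M` is a discrete valuation ring or a
field; in particular `NormAt p M`. -/
theorem normAt_of_principal [IsNoetherianRing C] (p σ : C) (M : Ideal C) (hM : M.IsMaximal)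
    (hpM : p ∈ M) (hσM : σ ∈ M)
    (h1 : ∃ e, e ∉ M ∧ ∀ m ∈ M, ∃ a b, e * m = p * a + σ * b)
    (h2 : (∀ x, p ∣ σ * x → p ∣ x) ∨ p ∣ σ) : NormAt p M := by
  classical
  have hle : Ideal.span {p} ≤ M := (Ideal.span_singleton_le_iff_mem M).mpr hpM
  have hmax := map_mk_isMaximal p M hM hpM
  have hprime : (M.map (Ideal.Quotient.mk (Ideal.span {p}))).IsPrime := hmax.isPrime
  set Mb : Ideal (C ⧸ Ideal.span {p}) := M.map (Ideal.Quotient.mk (Ideal.span {p})) with hMb
  set D := Localization.AtPrime Mb with hD
  have hnoeth : IsNoetherianRing D :=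
    IsLocalization.isNoetherianRing Mb.primeCompl D inferInstance
  set σD : D := algebraMap (C ⧸ Ideal.span {p}) D (Ideal.Quotient.mk (Ideal.span {p}) σ) with hσD
  obtain ⟨e, heM, he⟩ := h1
  have heb : Ideal.Quotient.mk (Ideal.span {p}) e ∉ Mb := fun h =>
    heM ((Ideal.mem_quotient_iff_mem hle).mp h)
  have hmaxD : maximalIdeal D = Ideal.span {σD} := by
    have hmap : Mb.map (algebraMap (C ⧸ Ideal.span {p}) D) = maximalIdeal D :=
      Localization.AtPrime.map_eq_maximalIdeal
    apply le_antisymm
    · rw [← hmap, Ideal.map_le_iff_le_comap]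
      intro xb hxb
      obtain ⟨m, hm, rfl⟩ := (Ideal.mem_map_iff_of_surjective _ Ideal.Quotient.mk_surjective).mp hxb
      obtain ⟨a, b, hab⟩ := he m hm
      rw [Ideal.mem_comap]
      have hunit : IsUnit (algebraMap (C ⧸ Ideal.span {p}) D
          (Ideal.Quotient.mk (Ideal.span {p}) e)) :=
        IsLocalization.map_units D (⟨_, heb⟩ : Mb.primeCompl)
      have h3 : algebraMap (C ⧸ Ideal.span {p}) D (Ideal.Quotient.mk (Ideal.span {p}) e) *
          algebraMap (C ⧸ Ideal.span {p}) D (Ideal.Quotient.mk (Ideal.span {p}) m) =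
          σD * algebraMap (C ⧸ Ideal.span {p}) D (Ideal.Quotient.mk (Ideal.span {p}) b) := by
        rw [hσD, ← map_mul, ← map_mul, ← map_mul, ← map_mul, hab, map_add, map_mul, map_mul,
          Ideal.Quotient.eq_zero_iff_mem.mpr (Ideal.mem_span_singleton_self p), zero_mul, zero_add]
      have h4 : algebraMap (C ⧸ Ideal.span {p}) D (Ideal.Quotient.mk (Ideal.span {p}) m) ∈
          Ideal.span {σD} := by
        have h5 : algebraMap (C ⧸ Ideal.span {p}) D (Ideal.Quotient.mk (Ideal.span {p}) e) *
            algebraMap (C ⧸ Ideal.span {p}) D (Ideal.Quotient.mk (Ideal.span {p}) m) ∈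
            Ideal.span {σD} := by
          rw [h3]; exact Ideal.mul_mem_right _ _ (Ideal.mem_span_singleton_self σD)
        exact (Ideal.unit_mul_mem_iff_mem _ hunit).mp h5
      exact h4
    · rw [Ideal.span_le, Set.singleton_subset_iff, ← hmap]
      exact Ideal.mem_map_of_mem _ (Ideal.mem_map_of_mem _ hσM)
  have hreg : σD ∈ nonZeroDivisors D ∨ σD = 0 := by
    rcases h2 with h2 | h2
    · left
      apply IsLocalization.map_nonZeroDivisors_le Mb.primeCompl D
      refine ⟨Ideal.Quotient.mk (Ideal.span {p}) σ, ?_, rfl⟩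
      rw [SetLike.mem_coe, mem_nonZeroDivisors_iff_right]
      intro xb hxb
      obtain ⟨x, rfl⟩ := Ideal.Quotient.mk_surjective xb
      rw [← map_mul, Ideal.Quotient.eq_zero_iff_mem, Ideal.mem_span_singleton] at hxb
      rw [Ideal.Quotient.eq_zero_iff_mem, Ideal.mem_span_singleton]
      apply h2 x
      rwa [mul_comm]
    · right
      rw [hσD, Ideal.Quotient.eq_zero_iff_mem.mpr (Ideal.mem_span_singleton.mpr h2), map_zero]
  have hdom : IsDomain D := isDomain_of_maximalIdeal_eq_span σD hmaxD hreg
  have hic : IsIntegrallyClosed D := isIntegrallyClosed_of_maximalIdeal_eq_span σD hmaxD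
  exact normAt_of_isIntegrallyClosed p M hM hpM D

end Quot

end Fermat.Agent.S30.Model.SFN
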