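import Mathlib
import Fermat.Agent.S30.Model.SFN.Basic

/-!
# SFN: descent of `NormAt` and the passage to the global quotient

* `normAt_of_isLocalization` : `NormAt` descends from a localisation `C' = S⁻¹ C`.
* `normAt_of_retraction` : `NormAt` descends along an integral ring extension `C → C'` which
  has a `C`-linear retraction `ρ : C' → C`.
* `isIntegrallyClosed_of_normAt` : `p` prime and `NormAt p M` at all maximal `M ∋ p` imply that
  `C ⧸ (p)` is integrally closed.
* `regAt_of_isDedekindDomain` : if `C ⧸ (p)` is a Dedekind domain, then `RegAt p M` at every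
  maximal ideal `M ∋ p`.
-/

set_option autoImplicit false

namespace Fermat.Agent.S30.Model.SFN

section Localization

variable {C C' : Type*} [CommRing C] [CommRing C'] [Algebra C C']

/-- `NormAt` descends from a localisation. -/
theorem normAt_of_isLocalization (S : Submonoid C) [IsLocalization S C'] (p : C)
    (M : Ideal C) (hM : M.IsMaximal) (hMS : Disjoint (S : Set C) (M : Set C))
    (M' : Ideal C') (hM' : M'.comap (algebraMap C C') = M)
    (h : NormAt (algebraMap C C' p) M') : NormAt p M := by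
  classical
  intro a b n c hdiv
  have hdiv' : algebraMap C C' p ∣ algebraMap C C' a ^ n +
      ∑ k ∈ Finset.range n, algebraMap C C' (c k) * algebraMap C C' a ^ k *
        algebraMap C C' b ^ (n - k) := by
    have := map_dvd (algebraMap C C') hdiv
    simpa [map_add, map_sum, map_mul, map_pow] using this
  obtain ⟨s', hs', y', w', hw'⟩ := h _ _ n (fun k => algebraMap C C' (c k)) hdiv'
  obtain ⟨t, ht⟩ := IsLocalization.exist_integer_multiples_of_finset S ({s', y', w'} : Finset C')
  obtain ⟨s, hs⟩ := ht s' (by simp)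
  obtain ⟨y, hy⟩ := ht y' (by simp)
  obtain ⟨w, hw⟩ := ht w' (by simp)
  rw [Algebra.smul_def] at hs hy hw
  have htunit : IsUnit (algebraMap C C' (t : C)) := IsLocalization.map_units C' t
  have h1 : algebraMap C C' (s * a - b * y) = algebraMap C C' (p * w) := by
    rw [map_sub, map_mul, map_mul, map_mul, hs, hy, hw]
    have : algebraMap C C' ↑t * s' * algebraMap C C' a -
        algebraMap C C' b * (algebraMap C C' ↑t * y') =
        algebraMap C C' ↑t * (s' * algebraMap C C' a - algebraMap C C' b * y') := by ring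
    rw [this, hw']
    ring
  obtain ⟨u, hu⟩ := (IsLocalization.eq_iff_exists S C').mp h1
  have huM : (u : C) ∉ M := fun h => Set.disjoint_left.mp hMS u.2 h
  have hsM : s ∉ M := by
    intro hsM
    apply hs'
    have h2 : algebraMap C C' s ∈ M' := by
      have : s ∈ M'.comap (algebraMap C C') := by rw [hM']; exact hsM
      exact Ideal.mem_comap.mp this
    rw [hs] at h2
    exact (Ideal.unit_mul_mem_iff_mem _ htunit).mp h2
  exact ⟨u * s, fun h => (hM.isPrime.mem_or_mem h).elim huM hsM, u * y, u * w, by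
    linear_combination hu⟩

end Localization

section Retraction

variable {C C' : Type*} [CommRing C] [CommRing C'] [Algebra C C'] [Algebra.IsIntegral C C']

/-- **Descent of normality along a retraction.**  `C → C'` integral with a `C`-linear retraction
`ρ`.  If `C'` satisfies `NormAt` at every maximal ideal above `M`, then `C` satisfies `NormAt`
at `M`. -/
theorem normAt_of_retraction (ρ : C' →ₗ[C] C) (hρ : ∀ c : C, ρ (algebraMap C C' c) = c) (p : C)
    (M : Ideal C) (hM : M.IsMaximal)
    (h : ∀ M' : Ideal C', M'.IsMaximal → M'.comap (algebraMap C C') = M →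
      NormAt (algebraMap C C' p) M') : NormAt p M := by
  classical
  intro a b n c hdiv
  have hdiv' : algebraMap C C' p ∣ algebraMap C C' a ^ n +
      ∑ k ∈ Finset.range n, algebraMap C C' (c k) * algebraMap C C' a ^ k *
        algebraMap C C' b ^ (n - k) := by
    have := map_dvd (algebraMap C C') hdiv
    simpa [map_add, map_sum, map_mul, map_pow] using this
  -- the ideal of multipliers
  let J : Ideal C' := Submodule.comap (LinearMap.mulRight C' (algebraMap C C' a))
    (Ideal.span {algebraMap C C' b, algebraMap C C' p})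
  have hJ : ∀ s' : C', s' ∈ J ↔ ∃ y' w', s' * algebraMap C C' a =
      y' * algebraMap C C' b + w' * algebraMap C C' p := by
    intro s'
    show s' * algebraMap C C' a ∈ Ideal.span {algebraMap C C' b, algebraMap C C' p} ↔ _
    rw [Ideal.mem_span_pair]
    constructor
    · rintro ⟨y', w', h⟩; exact ⟨y', w', h.symm⟩
    · rintro ⟨y', w', h⟩; exact ⟨y', w', h.symm⟩
  have hex : ∃ s0 : C, s0 ∉ M ∧ algebraMap C C' s0 ∈ J := by
    by_contra hcon
    push Not at hcon
    have hle : J.comap (algebraMap C C') ≤ M := by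
      intro s0 hs0
      by_contra hs0M
      exact hcon s0 hs0M (Ideal.mem_comap.mp hs0)
    have hMp : M.IsPrime := hM.isPrime
    obtain ⟨Q, hQJ, hQp, hQM⟩ := Ideal.exists_ideal_over_prime_of_isIntegral M J hle
    have hQmax : Q.IsMaximal :=
      Ideal.isMaximal_of_isIntegral_of_isMaximal_comap (R := C) Q (by rw [hQM]; exact hM)
    obtain ⟨s', hs', y', ⟨w', hw'⟩⟩ := h Q hQmax hQM _ _ n (fun k => algebraMap C C' (c k)) hdiv'
    apply hs'
    apply hQJ
    rw [hJ]
    exact ⟨y', w', by linear_combination hw'⟩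
  obtain ⟨s0, hs0M, hs0J⟩ := hex
  obtain ⟨y', w', hyw⟩ := (hJ _).mp hs0J
  refine ⟨s0, hs0M, ρ y', ρ w', ?_⟩
  have h1 : ρ (algebraMap C C' s0 * algebraMap C C' a) = s0 * a := by
    rw [← map_mul, hρ]
  have h2 : ρ (y' * algebraMap C C' b) = b * ρ y' := by
    rw [mul_comm, ← Algebra.smul_def, map_smul, smul_eq_mul]
  have h3 : ρ (w' * algebraMap C C' p) = p * ρ w' := by
    rw [mul_comm, ← Algebra.smul_def, map_smul, smul_eq_mul]
  have h4 := congrArg ρ hyw
  rw [h1, map_add, h2, h3] at h4
  linear_combination h4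

end Retraction

section Global

variable {C : Type*} [CommRing C]

private theorem aux_field {K : Type*} [Field K] (A x y w : K) (hy : y ≠ 0) :
    A * x * w = A * (x / y) * (y * w) := by
  field_simp

/-- **Local normality ⇒ the special fibre is integrally closed.** -/
theorem isIntegrallyClosed_of_normAt (p : C) (hp : Prime p)
    (h : ∀ M : Ideal C, M.IsMaximal → p ∈ M → NormAt p M) :
    IsIntegrallyClosed (C ⧸ Ideal.span {p}) := by
  classical
  have hprime : (Ideal.span {p}).IsPrime := (Ideal.span_singleton_prime hp.ne_zero).mpr hp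
  let K := FractionRing (C ⧸ Ideal.span {p})
  rw [isIntegrallyClosed_iff K]
  intro x hx
  obtain ⟨ab, bb, hbb, rfl⟩ := IsFractionRing.div_surjective (A := C ⧸ Ideal.span {p}) x
  have hbb0 : bb ≠ 0 := nonZeroDivisors.ne_zero hbb
  have hbK : algebraMap (C ⧸ Ideal.span {p}) K bb ≠ 0 :=
    (map_ne_zero_iff _ (IsFractionRing.injective _ K)).mpr hbb0
  obtain ⟨P, hPm, hP⟩ := hx
  obtain ⟨a, rfl⟩ := Ideal.Quotient.mk_surjective ab
  obtain ⟨b, rfl⟩ := Ideal.Quotient.mk_surjective bb
  -- lift the coefficients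
  have hcoef : ∀ k : ℕ, ∃ c : C, Ideal.Quotient.mk (Ideal.span {p}) c = P.coeff k := fun k =>
    Ideal.Quotient.mk_surjective _
  choose c hc using hcoef
  set n := P.natDegree with hn
  set α := Ideal.Quotient.mk (Ideal.span {p}) a with hα
  set β := Ideal.Quotient.mk (Ideal.span {p}) b with hβ
  -- the relation in the quotient
  have hrelK : algebraMap _ K (α ^ n + ∑ k ∈ Finset.range n, P.coeff k * α ^ k * β ^ (n - k))
      = 0 := by
    rw [Polynomial.eval₂_eq_sum_range, Finset.sum_range_succ, ← hn, hPm.coeff_natDegree,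
      map_one, one_mul] at hP
    have h1 : (∑ k ∈ Finset.range n, algebraMap _ K (P.coeff k) *
        (algebraMap _ K α / algebraMap _ K β) ^ k +
        (algebraMap _ K α / algebraMap _ K β) ^ n) * algebraMap _ K β ^ n = 0 := by
      rw [hP, zero_mul]
    rw [map_add, map_sum, map_pow]
    rw [add_mul, Finset.sum_mul, div_pow, div_mul_cancel₀ _ (pow_ne_zero n hbK)] at h1
    rw [add_comm, ← h1]
    congr 1
    refine Finset.sum_congr rfl fun k hk => ?_
    have hk' : k ≤ n := (Finset.mem_range.mp hk).le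
    rw [map_mul, map_mul, map_pow, map_pow, div_pow]
    have e : algebraMap _ K β ^ n = algebraMap _ K β ^ k * algebraMap _ K β ^ (n - k) := by
      rw [← pow_add, Nat.add_sub_cancel' hk']
    rw [e]
    exact aux_field _ _ _ _ (pow_ne_zero k hbK)
  have hrel : α ^ n + ∑ k ∈ Finset.range n, P.coeff k * α ^ k * β ^ (n - k) = 0 :=
    (map_eq_zero_iff _ (IsFractionRing.injective _ K)).mp hrelK
  have hdiv : p ∣ a ^ n + ∑ k ∈ Finset.range n, c k * a ^ k * b ^ (n - k) := by
    rw [← Ideal.mem_span_singleton, ← Ideal.Quotient.eq_zero_iff_mem, ← hrel]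
    simp [map_add, map_sum, map_mul, map_pow, hc, hα, hβ]
  -- the ideal of multipliers is the unit ideal
  let J : Ideal (C ⧸ Ideal.span {p}) :=
    Submodule.comap (LinearMap.mulRight (C ⧸ Ideal.span {p}) α) (Ideal.span {β})
  have hJ : ∀ s : C ⧸ Ideal.span {p}, s ∈ J ↔ ∃ y, s * α = y * β := by
    intro s
    show s * α ∈ Ideal.span {β} ↔ _
    rw [Ideal.mem_span_singleton']
    constructor
    · rintro ⟨y, h⟩; exact ⟨y, h.symm⟩
    · rintro ⟨y, h⟩; exact ⟨y, h.symm⟩
  have hJtop : J = ⊤ := by
    by_contra hne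
    obtain ⟨Mb, hMb, hJM⟩ := Ideal.exists_le_maximal J hne
    have hMmax : (Mb.comap (Ideal.Quotient.mk (Ideal.span {p}))).IsMaximal :=
      Ideal.comap_isMaximal_of_surjective _ Ideal.Quotient.mk_surjective
    have hpM : p ∈ Mb.comap (Ideal.Quotient.mk (Ideal.span {p})) := by
      rw [Ideal.mem_comap, Ideal.Quotient.eq_zero_iff_mem.mpr (Ideal.mem_span_singleton_self p)]
      exact Mb.zero_mem
    obtain ⟨s, hs, y, hy⟩ := h _ hMmax hpM a b n c hdiv
    apply hs
    rw [Ideal.mem_comap]
    apply hJM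
    rw [hJ]
    refine ⟨Ideal.Quotient.mk (Ideal.span {p}) y, ?_⟩
    have h2 : Ideal.Quotient.mk (Ideal.span {p}) (s * a - b * y) = 0 :=
      Ideal.Quotient.eq_zero_iff_mem.mpr (Ideal.mem_span_singleton.mpr hy)
    rw [map_sub, sub_eq_zero, map_mul, map_mul] at h2
    rw [hα, hβ, h2, mul_comm]
  obtain ⟨y, hy⟩ := (hJ 1).mp (by rw [hJtop]; exact Submodule.mem_top)
  rw [one_mul] at hy
  refine ⟨y, ?_⟩
  rw [hy, map_mul, mul_div_assoc, div_self hbK, mul_one]

/-- **Dedekind special fibre ⇒ regular at every closed point.** -/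
theorem regAt_of_isDedekindDomain (p : C) [IsDedekindDomain (C ⧸ Ideal.span {p})]
    (M : Ideal C) (hM : M.IsMaximal) (hpM : p ∈ M) : RegAt p M := by
  classical
  have hle : Ideal.span {p} ≤ M := (Ideal.span_singleton_le_iff_mem M).mpr hpM
  have hmax := map_mk_isMaximal p M hM hpM
  set Mb : Ideal (C ⧸ Ideal.span {p}) := M.map (Ideal.Quotient.mk (Ideal.span {p})) with hMb
  by_cases hbot : Mb = ⊥
  · refine ⟨p, hpM, fun x hx => ⟨1, fun h1 => hM.ne_top ((Ideal.eq_top_iff_one M).mpr h1), ?_⟩⟩
    have hx' : Ideal.Quotient.mk (Ideal.span {p}) x ∈ Mb := Ideal.mem_map_of_mem _ hx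
    rw [hbot, Ideal.mem_bot, Ideal.Quotient.eq_zero_iff_mem, Ideal.mem_span_singleton] at hx'
    obtain ⟨w, rfl⟩ := hx'
    rw [one_mul]
    exact Ideal.mul_mem_right _ _ (Ideal.subset_span (by simp))
  · have hlt : Mb ^ 2 < Mb ^ 1 :=
      Ideal.pow_right_strictAnti Mb hbot hmax.ne_top (by norm_num : 1 < 2)
    rw [pow_one] at hlt
    obtain ⟨τb, hτb, hτb2⟩ := SetLike.exists_of_lt hlt
    obtain ⟨I, hI⟩ : Mb ∣ Ideal.span {τb} := Ideal.dvd_span_singleton.mpr hτb
    have hInot : ¬ I ≤ Mb := by
      intro hIle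
      apply hτb2
      have h1 : Mb ^ 2 ∣ Ideal.span {τb} := by
        rw [hI, pow_two]
        exact mul_dvd_mul_left Mb (Ideal.dvd_iff_le.mpr hIle)
      exact Ideal.dvd_span_singleton.mp h1
    obtain ⟨sb, hsbI, hsbM⟩ := SetLike.not_le_iff_exists.mp hInot
    obtain ⟨τ, rfl⟩ := Ideal.Quotient.mk_surjective τb
    obtain ⟨s, rfl⟩ := Ideal.Quotient.mk_surjective sb
    have hτM : τ ∈ M := (Ideal.mem_quotient_iff_mem hle).mp hτb
    have hsM : s ∉ M := fun h => hsbM (Ideal.mem_map_of_mem _ h)
    refine ⟨τ, hτM, fun x hx => ⟨s, hsM, ?_⟩⟩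
    have hx' : Ideal.Quotient.mk (Ideal.span {p}) x ∈ Mb := Ideal.mem_map_of_mem _ hx
    have h2 : Ideal.Quotient.mk (Ideal.span {p}) x * Ideal.Quotient.mk (Ideal.span {p}) s ∈
        Ideal.span {Ideal.Quotient.mk (Ideal.span {p}) τ} := by
      rw [hI]; exact Ideal.mul_mem_mul hx' hsbI
    obtain ⟨bb, hbb⟩ := Ideal.mem_span_singleton'.mp h2
    obtain ⟨b, rfl⟩ := Ideal.Quotient.mk_surjective bb
    have h3 : Ideal.Quotient.mk (Ideal.span {p}) (s * x - τ * b) = 0 := by
      rw [map_sub, map_mul, map_mul, sub_eq_zero, mul_comm, ← hbb, mul_comm]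
    obtain ⟨w, hw⟩ := Ideal.mem_span_singleton.mp (Ideal.Quotient.eq_zero_iff_mem.mp h3)
    rw [Ideal.mem_span_pair]
    exact ⟨w, b, by linear_combination -hw⟩

end Global

end Fermat.Agent.S30.Model.SFN
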