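import Fermat.Agent.S30.Model.SFN.Pack

/-!
# Special fibre: Krull dimension `≤ 1` and the Dedekind packaging over a base

* `dimensionLEOne_of_isIntegral` : a domain integral over a domain of dimension `≤ 1` has
  dimension `≤ 1` (the map need not be injective).
* `isIntegral_quotLift`, `dimensionLEOne_quotient` : for `C` integral over `A` and `π : A`, the
  special fibre `C ⧸ (π)` is integral over `A ⧸ (π)`; so it has dimension `≤ 1` when
  `A ⧸ (π)` does (e.g. `A ⧸ (π) = k[t]` a PID).
* `isDedekindDomain_quotient_of_regAt` : chart-shaped packaging, `RegAt` at every maximal ideal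
  containing `π` ⟹ `C ⧸ (π)` is a Dedekind domain.

Mathlib only (through `SFN.Pack`).
-/

set_option autoImplicit false

namespace Fermat.Agent.S30.Model.SFN

/-- A domain integral over a domain of Krull dimension `≤ 1` has Krull dimension `≤ 1`. -/
theorem dimensionLEOne_of_isIntegral {A B : Type*} [CommRing A] [IsDomain A]
    [Ring.DimensionLEOne A] [CommRing B] [IsDomain B] (f : A →+* B) (hf : f.IsIntegral) :
    Ring.DimensionLEOne B := by
  classical
  refine ⟨fun {q} hq0 hq => ?_⟩
  let _ : Algebra A B := f.toAlgebra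
  have hint : Algebra.IsIntegral A B := ⟨hf⟩
  have hcomap : (q.comap (algebraMap A B)).IsPrime := Ideal.comap_isPrime _ _
  have hne : q.comap (algebraMap A B) ≠ ⊥ := by
    intro hbot
    have hinj : Function.Injective (algebraMap A B) := by
      rw [injective_iff_map_eq_zero]
      intro a ha
      have : a ∈ q.comap (algebraMap A B) := by
        rw [Ideal.mem_comap, ha]; exact q.zero_mem
      rw [hbot] at this
      exact (Submodule.mem_bot A).mp this
    have : FaithfulSMul A B := (faithfulSMul_iff_algebraMap_injective A B).mpr hinj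
    exact hq0 (Ideal.eq_bot_of_comap_eq_bot hbot)
  have hmax : (q.comap (algebraMap A B)).IsMaximal :=
    Ring.DimensionLEOne.maximalOfPrime hne hcomap
  exact Ideal.isMaximal_of_isIntegral_of_isMaximal_comap q hmax

section Quot

variable {A C : Type*} [CommRing A] [CommRing C] [Algebra A C]

/-- The induced map `A ⧸ (π) → C ⧸ (π)`. -/
noncomputable def quotLift (π : A) :
    A ⧸ Ideal.span {π} →+* C ⧸ Ideal.span {algebraMap A C π} :=
  Ideal.Quotient.lift (Ideal.span {π})
    ((Ideal.Quotient.mk (Ideal.span {algebraMap A C π})).comp (algebraMap A C))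
    (fun a ha => by
      obtain ⟨b, rfl⟩ := Ideal.mem_span_singleton.mp ha
      rw [RingHom.comp_apply, Ideal.Quotient.eq_zero_iff_mem, map_mul]
      exact Ideal.mul_mem_right _ _ (Ideal.mem_span_singleton_self _))

theorem quotLift_mk (π : A) (a : A) :
    quotLift (C := C) π (Ideal.Quotient.mk _ a) =
      Ideal.Quotient.mk (Ideal.span {algebraMap A C π}) (algebraMap A C a) := rfl

theorem isIntegral_quotLift [Algebra.IsIntegral A C] (π : A) :
    (quotLift (C := C) π).IsIntegral := by
  intro x
  obtain ⟨c, rfl⟩ := Ideal.Quotient.mk_surjective x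
  obtain ⟨q, hq, hq'⟩ := Algebra.IsIntegral.isIntegral (R := A) c
  refine ⟨q.map (Ideal.Quotient.mk (Ideal.span {π})), hq.map _, ?_⟩
  rw [Polynomial.eval₂_map]
  have h1 : (quotLift (C := C) π).comp (Ideal.Quotient.mk (Ideal.span {π})) =
      (Ideal.Quotient.mk (Ideal.span {algebraMap A C π})).comp (algebraMap A C) := by
    ext a; rfl
  rw [h1, ← Polynomial.hom_eval₂, hq', map_zero]

/-- The special fibre of an integral `A`-algebra has dimension `≤ 1` when `A ⧸ (π)` does. -/
theorem dimensionLEOne_quotient [Algebra.IsIntegral A C] (π : A)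
    [IsDomain (A ⧸ Ideal.span {π})] [Ring.DimensionLEOne (A ⧸ Ideal.span {π})]
    [IsDomain (C ⧸ Ideal.span {algebraMap A C π})] :
    Ring.DimensionLEOne (C ⧸ Ideal.span {algebraMap A C π}) :=
  dimensionLEOne_of_isIntegral (quotLift (C := C) π) (isIntegral_quotLift π)

/-- **Chart-shaped packaging**: if `C` is Noetherian and integral over `A`, `A ⧸ (π)` is a
domain of dimension `≤ 1` (e.g. a PID), `π` is prime in `C` and `C` is regular (`RegAt`) at every
maximal ideal containing `π`, then the special fibre `C ⧸ (π)` is a Dedekind domain. -/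
theorem isDedekindDomain_quotient_of_regAt [IsNoetherianRing C] [Algebra.IsIntegral A C] (π : A)
    [IsDomain (A ⧸ Ideal.span {π})] [Ring.DimensionLEOne (A ⧸ Ideal.span {π})]
    (hp : Prime (algebraMap A C π))
    (h : ∀ M : Ideal C, M.IsMaximal → algebraMap A C π ∈ M → RegAt (algebraMap A C π) M) :
    IsDedekindDomain (C ⧸ Ideal.span {algebraMap A C π}) := by
  have : (Ideal.span {algebraMap A C π}).IsPrime :=
    (Ideal.span_singleton_prime hp.ne_zero).mpr hp
  have : IsDomain (C ⧸ Ideal.span {algebraMap A C π}) := Ideal.Quotient.isDomain _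
  exact isDedekindDomain_of_regAt _ hp (dimensionLEOne_quotient π) h

/-- Same with a principal ideal domain `A ⧸ (π)`, the shape of the `Model` charts
(`A = O[t]`, `A ⧸ (π) = k[t]`). -/
theorem isDedekindDomain_quotient_of_regAt_of_pid [IsNoetherianRing C] [Algebra.IsIntegral A C]
    (π : A) [IsDomain (A ⧸ Ideal.span {π})] [IsPrincipalIdealRing (A ⧸ Ideal.span {π})]
    (hp : Prime (algebraMap A C π))
    (h : ∀ M : Ideal C, M.IsMaximal → algebraMap A C π ∈ M → RegAt (algebraMap A C π) M) :
    IsDedekindDomain (C ⧸ Ideal.span {algebraMap A C π}) :=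
  isDedekindDomain_quotient_of_regAt π hp h

end Quot

end Fermat.Agent.S30.Model.SFN
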