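import Mathlib
import Fermat.Agent.S30.Model.LocalNB
import Fermat.Agent.S30.Model.SFN.Descent

/-!
# SFN at a non-branch closed point

* `normAt_of_isUnit_discr` : `R` Noetherian local with maximal ideal `(π, s)`, `(π)` prime, `C`
  finite free over `R` with unit discriminant.  Then `NormAt π M` at every maximal ideal `M` of
  `C` (the fibre `C / (π, s)` is a product of fields and `s` is a non-zero-divisor modulo `π`, so
  `(C/π)_M` is a discrete valuation ring with uniformiser `s`, or a field).
* `normAt_of_tsdField` : the global chart form, the exact twin of `LocalNB.ldAt_of_tsdField`.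
-/

set_option autoImplicit false

namespace Fermat.Agent.S30.Model.SFN

open Fermat.Agent.S30.Model Fermat.Agent.Lib

section Local

variable {R C : Type*} [CommRing R] [CommRing C] [Algebra R C]

/-- **Unit discriminant ⇒ the special fibre is normal (local form).** -/
theorem normAt_of_isUnit_discr {ι : Type*} [Fintype ι] [DecidableEq ι] [IsNoetherianRing R]
    [IsLocalRing R] (b : Module.Basis ι R C)
    (hb : IsUnit (Algebra.discr R b)) {π s : R} (hπ : (Ideal.span {π}).IsPrime)
    (hmax : IsLocalRing.maximalIdeal R = Ideal.span {π, s})
    (M : Ideal C) (hM : M.IsMaximal) :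
    NormAt (algebraMap R C π) M := by
  classical
  have hfin : Module.Finite R C := Module.Finite.of_basis b
  have hnoeth : IsNoetherianRing C := isNoetherian_of_tower R (inferInstance : IsNoetherian R C)
  have hint : Algebra.IsIntegral R C := inferInstance
  have hMp : M.IsPrime := hM.isPrime
  -- `M` lies over the maximal ideal of `R`
  have hcomap : M.comap (algebraMap R C) = IsLocalRing.maximalIdeal R :=
    IsLocalRing.eq_maximalIdeal (Ideal.isMaximal_comap_of_isIntegral_of_isMaximal M)
  have hmapM : (IsLocalRing.maximalIdeal R).map (algebraMap R C) ≤ M := by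
    rw [Ideal.map_le_iff_le_comap, hcomap]
  have hπm : π ∈ IsLocalRing.maximalIdeal R := by
    rw [hmax]; exact Ideal.subset_span (by simp)
  have hsm : s ∈ IsLocalRing.maximalIdeal R := by
    rw [hmax]; exact Ideal.subset_span (by simp)
  have hπM : algebraMap R C π ∈ M := hmapM (Ideal.mem_map_of_mem _ hπm)
  have hsM : algebraMap R C s ∈ M := hmapM (Ideal.mem_map_of_mem _ hsm)
  obtain ⟨e, heM, he⟩ := UnitDisc.exists_not_mem_forall_mul_mem b hb (IsLocalRing.maximalIdeal R)
    M hmapM
  have hmapspan : (IsLocalRing.maximalIdeal R).map (algebraMap R C) =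
      Ideal.span {algebraMap R C π, algebraMap R C s} := by
    rw [hmax, Ideal.map_span, Set.image_pair]
  refine normAt_of_principal (algebraMap R C π) (algebraMap R C s) M hM hπM hsM
    ⟨e, heM, fun m hm => ?_⟩ ?_
  · have h1 := he m hm
    rw [hmapspan, Ideal.mem_span_pair] at h1
    obtain ⟨a, c, hac⟩ := h1
    exact ⟨a, c, by rw [← hac]; ring⟩
  · by_cases hs : s ∈ Ideal.span {π}
    · right
      obtain ⟨w, rfl⟩ := Ideal.mem_span_singleton.mp hs
      exact ⟨algebraMap R C w, by rw [map_mul]⟩
    · left
      intro x hx
      have h2 : algebraMap R C s * x ∈ Ideal.span {algebraMap R C π} :=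
        Ideal.mem_span_singleton.mpr hx
      exact Ideal.mem_span_singleton.mp (UnitDisc.mem_span_of_algebraMap_mul_mem b hπ hs h2)

end Local

universe u v

variable {A : Type u} {K : Type*} {L : Type v} [CommRing A] [IsDomain A] [IsNoetherianRing A]
  [IsIntegrallyClosed A] [UniqueFactorizationMonoid A]
  [Field K] [Algebra A K] [IsFractionRing A K] [Field L] [Algebra K L] [Algebra A L]
  [IsScalarTower A K L] [FiniteDimensional K L] [Algebra.IsSeparable K L]

/-- **SFN at a non-branch point** (twin of `LocalNB.ldAt_of_tsdField`, same hypotheses). -/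
theorem normAt_of_tsdField (π : A) (hπ : Prime π) [IsPrincipalIdealRing (A ⧸ Ideal.span {π})]
    (M : Ideal (integralClosure A L)) (hM : M.IsMaximal)
    (hπM : algebraMap A (integralClosure A L) π ∈ M)
    (h : ∀ p : A, Prime p → algebraMap A (integralClosure A L) p ∈ M →
      LocalDisc.TSDField A K L p) :
    NormAt (algebraMap A (integralClosure A L) π) M := by
  classical
  have hinjK : Function.Injective (algebraMap A K) := IsFractionRing.injective A K
  have hinj : Function.Injective (algebraMap A L) := by
    rw [IsScalarTower.algebraMap_eq A K L]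
    exact (algebraMap K L).injective.comp hinjK
  have hfs : FaithfulSMul A L := (faithfulSMul_iff_algebraMap_injective A L).mpr hinj
  set x : Ideal A := M.comap (algebraMap A (integralClosure A L)) with hx
  have hxmax : x.IsMaximal := Ideal.isMaximal_comap_of_isIntegral_of_isMaximal M
  have hπx : π ∈ x := Ideal.mem_comap.mpr hπM
  have hunitK : ∀ y : x.primeCompl, IsUnit (algebraMap A K y) := fun y =>
    IsUnit.mk0 _ ((map_ne_zero_iff _ hinjK).mpr (fun h0 => y.2 (h0 ▸ x.zero_mem)))
  have hunit : ∀ y : x.primeCompl, IsUnit (algebraMap A L y) := fun y =>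
    IsUnit.mk0 _ ((map_ne_zero_iff _ hinj).mpr (fun h0 => y.2 (h0 ▸ x.zero_mem)))
  let R := Localization.AtPrime x
  let algRK : Algebra R K := (IsLocalization.lift (M := x.primeCompl) hunitK).toAlgebra
  have towerARK : IsScalarTower A R K := IsScalarTower.of_algebraMap_eq fun a => by
    simp [RingHom.algebraMap_toAlgebra, R]
  have fracR : IsFractionRing R K :=
    IsFractionRing.isFractionRing_of_isDomain_of_isLocalization x.primeCompl R K
  let algRL : Algebra R L := ((algebraMap K L).comp (algebraMap R K)).toAlgebra
  have towerRKL : IsScalarTower R K L := IsScalarTower.of_algebraMap_eq fun a => rfl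
  have towerARL : IsScalarTower A R L := IsScalarTower.of_algebraMap_eq fun a => by
    rw [RingHom.algebraMap_toAlgebra, RingHom.comp_apply, ← IsScalarTower.algebraMap_apply A R K,
      ← IsScalarTower.algebraMap_apply A K L]
  have domR : IsDomain R := IsLocalization.isDomain_of_atPrime R x
  have locR : IsLocalRing R := IsLocalization.AtPrime.isLocalRing R x
  have noethR : IsNoetherianRing R := IsLocalization.isNoetherianRing x.primeCompl R inferInstance
  have icR : IsIntegrallyClosed R :=
    isIntegrallyClosed_of_isLocalization R x.primeCompl x.primeCompl_le_nonZeroDivisors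
  have pirR : IsPrincipalIdealRing (R ⧸ Ideal.span {algebraMap A R π}) :=
    RegLocal.isPrincipalIdealRing_quotient x.primeCompl R π
  have freeC : Module.Free R (integralClosure R L) :=
    RegLocal.free_integralClosure_of_isLocalization_atPrime hπ x hπx R K L
  have finC : Module.Finite R (integralClosure R L) :=
    IsIntegralClosure.finite R K L (integralClosure R L)
  have hπ' : Prime (algebraMap A R π) := RegLocal.prime_algebraMap π x R hπ hπx
  have hπmem : algebraMap A R π ∈ IsLocalRing.maximalIdeal R :=
    RegLocal.algebraMap_mem_maximalIdeal π x R hπx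
  -- the discriminant is a unit
  have hb : IsUnit (Algebra.discr R (Module.Free.chooseBasis R (integralClosure R L))) := by
    refine LocalDisc.isUnit_discr (K := K) (L := L) x _ fun p hp hpx => h p hp ?_
    exact Ideal.mem_comap.mp hpx
  -- the localisation of the integral closure
  let algCC : Algebra (integralClosure A L) (integralClosure R L) :=
    (RegLocal.integralClosureMap (A := A) (L := L) R).toAlgebra
  have tower2 : IsScalarTower (integralClosure A L) (integralClosure R L) L :=
    IsScalarTower.of_algebraMap_eq fun c => rfl
  have tower3 : IsScalarTower A (integralClosure A L) (integralClosure R L) :=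
    IsScalarTower.of_algebraMap_eq fun a => Subtype.ext rfl
  have hLL : IsLocalization (Algebra.algebraMapSubmonoid L x.primeCompl) L := by
    apply IsLocalization.self
    rintro _ ⟨y, hy, rfl⟩
    exact hunit ⟨y, hy⟩
  have hloc' : IsLocalization (Algebra.algebraMapSubmonoid (integralClosure A L) x.primeCompl)
      (integralClosure R L) :=
    IsLocalization.integralClosure (S := L) (Rf := R) (Sf := L) x.primeCompl
  have hπeq : algebraMap (integralClosure A L) (integralClosure R L)
      (algebraMap A (integralClosure A L) π) =
      algebraMap R (integralClosure R L) (algebraMap A R π) := by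
    apply Subtype.ext
    change algebraMap A L π = algebraMap R L (algebraMap A R π)
    rw [← IsScalarTower.algebraMap_apply]
  obtain ⟨s, hs⟩ := LocalNB.exists_maximalIdeal_eq_span_pair (algebraMap A R π) hπmem
  have hπprime : (Ideal.span {algebraMap A R π}).IsPrime :=
    (Ideal.span_singleton_prime hπ'.ne_zero).2 hπ'
  -- the maximal ideal above `M`
  have hdisj : Disjoint ((Algebra.algebraMapSubmonoid (integralClosure A L) x.primeCompl :
      Submonoid (integralClosure A L)) : Set (integralClosure A L))
      (M : Set (integralClosure A L)) := by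
    rw [Set.disjoint_left]
    rintro _ ⟨y, hy, rfl⟩ hxM
    exact hy (Ideal.mem_comap.mpr hxM)
  have hMp : M.IsPrime := hM.isPrime
  set M' : Ideal (integralClosure R L) :=
    M.map (algebraMap (integralClosure A L) (integralClosure R L)) with hM'
  have hM'prime : M'.IsPrime := IsLocalization.isPrime_of_isPrime_disjoint
    (Algebra.algebraMapSubmonoid (integralClosure A L) x.primeCompl) _ M hMp hdisj
  have hcomap : M'.comap (algebraMap (integralClosure A L) (integralClosure R L)) = M :=
    IsLocalization.under_map_of_isPrime_disjoint
      (Algebra.algebraMapSubmonoid (integralClosure A L) x.primeCompl) _ hMp hdisj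
  have hM'max : M'.IsMaximal := by
    obtain ⟨N, hN, hle⟩ := Ideal.exists_le_maximal M' hM'prime.ne_top
    have h1 : M ≤ N.comap (algebraMap (integralClosure A L) (integralClosure R L)) :=
      fun y hy => Ideal.mem_comap.mpr (hle (Ideal.mem_map_of_mem _ hy))
    have h2 : N.comap (algebraMap (integralClosure A L) (integralClosure R L)) = M :=
      (hM.eq_of_le (Ideal.comap_ne_top _ hN.ne_top) h1).symm
    have h3 : N = M' := by
      have e := IsLocalization.map_under
        (Algebra.algebraMapSubmonoid (integralClosure A L) x.primeCompl)
        (S := integralClosure R L) N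
      have e2 : Ideal.under (integralClosure A L) N = M := h2
      rw [e2] at e
      exact e.symm
    rw [← h3]; exact hN
  refine normAt_of_isLocalization
    (Algebra.algebraMapSubmonoid (integralClosure A L) x.primeCompl)
    (algebraMap A (integralClosure A L) π) M hM hdisj M' hcomap ?_
  rw [hπeq]
  exact normAt_of_isUnit_discr _ hb hπprime hs M' hM'max

end Fermat.Agent.S30.Model.SFN
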